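import Mathlib.NumberTheory.LegendreSymbol.Basic
import Mathlib.Algebra.Squarefree.Basic
import Mathlib.Data.Nat.Squarefree
import Mathlib.NumberTheory.Padics.PadicVal.Basic
import Mathlib.Tactic

/-!
# The arithmetic core of the mod 3 irreducibility argument

If an integer `x` is a root of the (rescaled) `3`-division quartic
`x⁴ - 6 C₄ x² - 8 C₆ x - 3 C₄²` of a semistable curve, then local conditions at two suitable
primes of multiplicative reduction (one split, one non-split) are contradictory.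
-/

set_option autoImplicit false

namespace Fermat.Agent.Switch

/-- The structure of an integral root of the quartic: it is `± a b²` with `a ∣ 6`. -/
lemma natAbs_root {C4 C6 x : ℤ} (hx : x ^ 4 - 6 * C4 * x ^ 2 - 8 * C6 * x - 3 * C4 ^ 2 = 0)
    (hx0 : x ≠ 0)
    (hss : ∀ p : ℕ, p.Prime → 5 ≤ p → ¬ ((p : ℤ) ∣ C4 ∧ (p : ℤ) ∣ C6)) :
    ∃ a b : ℕ, a ∣ 6 ∧ x.natAbs = b ^ 2 * a := by
  obtain ⟨a, b, hab, hsq⟩ := Nat.sq_mul_squarefree x.natAbs
  refine ⟨a, b, ?_, hab.symm⟩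
  have hxn : x.natAbs ≠ 0 := Int.natAbs_ne_zero.mpr hx0
  have ha0 : a ≠ 0 := by rintro rfl; rw [mul_zero] at hab; exact hxn hab.symm
  have hb0 : b ≠ 0 := by rintro rfl; apply hxn; rw [← hab]; ring
  -- every prime factor of `a` is 2 or 3
  have key : ∀ p : ℕ, p.Prime → p ∣ a → p = 2 ∨ p = 3 := by
    intro p hp hpa
    by_contra hne
    rw [not_or] at hne
    have hp5 : 5 ≤ p := by
      have h2 := hp.two_le
      have h4 : p ≠ 4 := by rintro rfl; revert hp; decide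
      omega
    have : Fact p.Prime := ⟨hp⟩
    have hpx : (p : ℤ) ∣ x := by
      rw [Int.natCast_dvd]
      exact Dvd.dvd.trans hpa ⟨b ^ 2, by rw [← hab]; ring⟩
    have hpx' : (p : ℤ) ∣ 3 * C4 ^ 2 := by
      have : 3 * C4 ^ 2 = x * (x ^ 3 - 6 * C4 * x - 8 * C6) := by linear_combination (-1) * hx
      rw [this]; exact Dvd.dvd.mul_right hpx _
    have hpI : Prime (p : ℤ) := Nat.prime_iff_prime_int.mp hp
    have hC4 : (p : ℤ) ∣ C4 := by
      rcases hpI.dvd_or_dvd hpx' with h | h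
      · exfalso
        have : p ∣ 3 := by exact_mod_cast h
        have := Nat.le_of_dvd (by norm_num) this
        omega
      · exact hpI.dvd_of_dvd_pow h
    have hC6 : ¬ (p : ℤ) ∣ C6 := fun h => hss p hp hp5 ⟨hC4, h⟩
    have hy : ¬ (p : ℤ) ∣ (x ^ 3 - 6 * C4 * x - 8 * C6) := by
      intro h
      have h8 : (p : ℤ) ∣ 8 * C6 := by
        have : 8 * C6 = x * (x ^ 2 - 6 * C4) - (x ^ 3 - 6 * C4 * x - 8 * C6) := by ring
        rw [this]; exact dvd_sub (Dvd.dvd.mul_right hpx _) h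
      rcases hpI.dvd_or_dvd h8 with h | h
      · have h' : p ∣ 2 ^ 3 := by exact_mod_cast h
        have := hp.dvd_of_dvd_pow h'
        have := Nat.le_of_dvd (by norm_num) this
        omega
      · exact hC6 h
    have hC40 : C4 ≠ 0 := by
      rintro rfl
      have : x * (x ^ 3 - 8 * C6) = 0 := by linear_combination hx
      rcases mul_eq_zero.mp this with h | h
      · exact hx0 h
      · apply hy
        have : x ^ 3 - 6 * 0 * x - 8 * C6 = 0 := by linear_combination h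
        rw [this]; exact dvd_zero _
    -- compare valuations
    have hv1 : padicValInt p (x * (x ^ 3 - 6 * C4 * x - 8 * C6)) = padicValInt p (3 * C4 ^ 2) := by
      congr 1; linear_combination hx
    have hyne : x ^ 3 - 6 * C4 * x - 8 * C6 ≠ 0 := by
      intro h; rw [h] at hy; exact hy (dvd_zero _)
    rw [padicValInt.mul hx0 hyne, padicValInt.mul (by norm_num) (pow_ne_zero _ hC40),
      padicValInt.eq_zero_of_not_dvd hy] at hv1
    have h3 : padicValInt p 3 = 0 := by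
      apply padicValInt.eq_zero_of_not_dvd
      intro h
      have : p ∣ 3 := by exact_mod_cast h
      have := Nat.le_of_dvd (by norm_num) this
      omega
    rw [h3, pow_two, padicValInt.mul hC40 hC40] at hv1
    have hv2 : padicValInt p x = padicValNat p (b ^ 2 * a) := by
      rw [padicValInt, hab]
    rw [padicValNat.mul (pow_ne_zero _ hb0) ha0, padicValNat.pow] at hv2
    have hva : padicValNat p a = 1 := by
      have h1 : padicValNat p a ≤ 1 := by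
        have := (Nat.squarefree_iff_factorization_le_one ha0).mp hsq p
        rwa [Nat.factorization_def _ hp] at this
      have h2 : padicValNat p a ≠ 0 := by
        have := (dvd_iff_padicValNat_ne_zero (p := p) ha0).mp hpa
        exact this
      omega
    omega
  -- conclude `a ∣ 6`
  have ha : a = ∏ p ∈ a.primeFactors, p := (Nat.prod_primeFactors_of_squarefree hsq).symm
  have hsub : a.primeFactors ⊆ {2, 3} := by
    intro p hp
    rw [Nat.mem_primeFactors] at hp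
    simpa using key p hp.1 hp.2.1
  rw [ha]
  calc ∏ p ∈ a.primeFactors, p ∣ ∏ p ∈ ({2, 3} : Finset ℕ), p :=
        Finset.prod_dvd_prod_of_subset _ _ _ hsub
    _ = 6 := by norm_num

section local_part

variable {r : ℕ} [Fact r.Prime]

/-- In `𝔽_r`, with `r ≡ 3 mod 4`, `z` and `-z` are not both squares. -/
lemma not_isSquare_neg (h4 : r % 4 = 3) {z : ZMod r} (hz : z ≠ 0) (h1 : IsSquare z)
    (h2 : IsSquare (-z)) : False := by
  have h : IsSquare (-1 : ZMod r) := by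
    have : (-1 : ZMod r) = -z / z := by field_simp
    rw [this]; exact h2.div h1
  rw [ZMod.exists_sq_eq_neg_one_iff] at h
  exact h h4

/-- `a b²` with `a ∣ 6` is a square mod `r`. -/
lemma isSquare_of_dvd_six (h2 : IsSquare (2 : ZMod r)) (h3 : IsSquare (3 : ZMod r))
    {a b : ℕ} (ha : a ∣ 6) : IsSquare ((b ^ 2 * a : ℕ) : ZMod r) := by
  have haa : IsSquare ((a : ℕ) : ZMod r) := by
    have hle := Nat.le_of_dvd (by norm_num) ha
    interval_cases a
    · simp at ha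
    · simp
    · simpa using h2
    · simpa using h3
    · norm_num at ha
    · norm_num at ha
    · have : ((6 : ℕ) : ZMod r) = 2 * 3 := by norm_num
      rw [this]; exact h2.mul h3
  push_cast
  exact (IsSquare.sq _).mul haa

/-- The residue of the integral root at a prime of multiplicative reduction whose discriminant
valuation is prime to `3`. -/
lemma root_residue (hr5 : 5 ≤ r) {C4 C6 x : ℤ}
    (hx : x ^ 4 - 6 * C4 * x ^ 2 - 8 * C6 * x - 3 * C4 ^ 2 = 0)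
    {ρ : ZMod r} (hρ : ρ ≠ 0) (h4 : (C4 : ZMod r) = ρ ^ 2) (h6 : (C6 : ZMod r) = ρ ^ 3)
    (hv : (r : ℤ) ^ 5 ∣ C4 ^ 3 - C6 ^ 2) (hv' : ¬ (r : ℤ) ^ 6 ∣ C4 ^ 3 - C6 ^ 2) :
    (x : ZMod r) = 3 * ρ := by
  have hp := (Fact.out : r.Prime)
  have hpI : Prime (r : ℤ) := Nat.prime_iff_prime_int.mp hp
  have hcast : ∀ z : ℤ, (z : ZMod r) = 0 ↔ (r : ℤ) ∣ z := fun z => ZMod.intCast_zmod_eq_zero_iff_dvd z r
  have hsmall : ∀ n : ℕ, (∃ i j : ℕ, n = 2 ^ i * 3 ^ j) → ((n : ℕ) : ZMod r) ≠ 0 := by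
    rintro n ⟨i, j, rfl⟩ h
    rw [ZMod.natCast_eq_zero_iff] at h
    rcases (hp.dvd_mul).mp h with h | h
    · have := Nat.le_of_dvd (by norm_num) (hp.dvd_of_dvd_pow h); omega
    · have := Nat.le_of_dvd (by norm_num) (hp.dvd_of_dvd_pow h); omega
  have h8 : (8 : ZMod r) ≠ 0 := by simpa using hsmall 8 ⟨3, 0, by norm_num⟩
  have h3 : (3 : ZMod r) ≠ 0 := by simpa using hsmall 3 ⟨0, 1, by norm_num⟩
  have h64 : (64 : ZMod r) ≠ 0 := by simpa using hsmall 64 ⟨6, 0, by norm_num⟩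
  have hxbar : (x : ZMod r) ^ 4 - 6 * ρ ^ 2 * (x : ZMod r) ^ 2 - 8 * ρ ^ 3 * x - 3 * ρ ^ 4 = 0 := by
    have := congrArg (Int.cast : ℤ → ZMod r) hx
    push_cast at this
    rw [h4, h6] at this
    linear_combination this
  have hx0 : (x : ZMod r) ≠ 0 := by
    intro h
    rw [h] at hxbar
    have : (3 : ZMod r) * ρ ^ 4 = 0 := by linear_combination -hxbar
    exact mul_ne_zero h3 (pow_ne_zero _ hρ) this
  -- the key identity
  have hid : (x ^ 2 - C4) ^ 3 * (9 * C4 - x ^ 2) = 64 * x ^ 2 * (C4 ^ 3 - C6 ^ 2) := by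
    have h' : 8 * C6 * x = x ^ 4 - 6 * C4 * x ^ 2 - 3 * C4 ^ 2 := by linear_combination -hx
    have : 64 * x ^ 2 * C6 ^ 2 = (x ^ 4 - 6 * C4 * x ^ 2 - 3 * C4 ^ 2) ^ 2 := by
      rw [← h']; ring
    linear_combination this
  have hnd : ¬ (r : ℤ) ∣ 64 * x ^ 2 := by
    rw [← hcast]; push_cast
    exact mul_ne_zero h64 (pow_ne_zero _ hx0)
  have h1 : ¬ (r : ℤ) ∣ x ^ 2 - C4 := by
    intro h
    have hnine : ¬ (r : ℤ) ∣ 9 * C4 - x ^ 2 := by
      intro h'
      have : (r : ℤ) ∣ 8 * C4 := by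
        have e : 8 * C4 = (9 * C4 - x ^ 2) + (x ^ 2 - C4) := by ring
        rw [e]; exact dvd_add h' h
      rw [← hcast] at this
      push_cast at this
      rw [h4] at this
      exact mul_ne_zero h8 (pow_ne_zero _ hρ) this
    have hΔ0 : C4 ^ 3 - C6 ^ 2 ≠ 0 := fun h => hv' (h ▸ dvd_zero _)
    have hxx : x ^ 2 - C4 ≠ 0 := by
      intro h0
      rw [h0] at hid
      have : 64 * x ^ 2 * (C4 ^ 3 - C6 ^ 2) = 0 := by rw [← hid]; ring
      rcases mul_eq_zero.mp this with h | h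
      · exact hnd (h ▸ dvd_zero _)
      · exact hΔ0 h
    have hnn : 9 * C4 - x ^ 2 ≠ 0 := fun h => hnine (h ▸ dvd_zero _)
    have h64x : 64 * x ^ 2 ≠ 0 := fun h => hnd (h ▸ dvd_zero _)
    have hval := congrArg (padicValInt r) hid
    rw [padicValInt.mul (pow_ne_zero _ hxx) hnn, padicValInt.mul h64x hΔ0,
      padicValInt.eq_zero_of_not_dvd hnine, padicValInt.eq_zero_of_not_dvd hnd,
      pow_succ, pow_two, padicValInt.mul (mul_ne_zero hxx hxx) hxx, padicValInt.mul hxx hxx]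
      at hval
    have h5 : padicValInt r (C4 ^ 3 - C6 ^ 2) = 5 := by
      have ha : 5 ≤ padicValInt r (C4 ^ 3 - C6 ^ 2) := by
        have := (padicValInt_dvd_iff (p := r) 5 (C4 ^ 3 - C6 ^ 2)).mp (by exact_mod_cast hv)
        rcases this with h | h
        · exact absurd h hΔ0
        · exact h
      have hb : ¬ 6 ≤ padicValInt r (C4 ^ 3 - C6 ^ 2) := by
        intro h
        apply hv'
        have := (padicValInt_dvd_iff (p := r) 6 (C4 ^ 3 - C6 ^ 2)).mpr (Or.inr h)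
        exact_mod_cast this
      omega
    omega
  have h2 : (r : ℤ) ∣ 9 * C4 - x ^ 2 := by
    have : (r : ℤ) ∣ (x ^ 2 - C4) ^ 3 * (9 * C4 - x ^ 2) := by
      rw [hid]
      exact Dvd.dvd.mul_left (dvd_trans (dvd_pow_self _ (by norm_num)) hv) _
    rcases hpI.dvd_or_dvd this with h | h
    · exact absurd (hpI.dvd_of_dvd_pow h) h1
    · exact h
  rw [← hcast] at h2
  push_cast at h2
  rw [h4] at h2
  have hx2 : (x : ZMod r) ^ 2 = 9 * ρ ^ 2 := by linear_combination -h2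
  have hfin : 8 * ρ ^ 3 * ((x : ZMod r) - 3 * ρ) = 0 := by
    linear_combination -hxbar + ((x : ZMod r) ^ 2 + 3 * ρ ^ 2) * hx2
  rcases mul_eq_zero.mp hfin with h | h
  · exact absurd h (mul_ne_zero h8 (pow_ne_zero _ hρ))
  · exact sub_eq_zero.mp h

end local_part

/-- **Arithmetic core**: no integral root of the `3`-division quartic. -/
theorem core {C4 C6 x : ℤ} (hx : x ^ 4 - 6 * C4 * x ^ 2 - 8 * C6 * x - 3 * C4 ^ 2 = 0)
    (hss : ∀ p : ℕ, p.Prime → 5 ≤ p → ¬ ((p : ℤ) ∣ C4 ∧ (p : ℤ) ∣ C6))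
    {r₁ r₂ : ℕ} (hr₁ : r₁.Prime) (hr₂ : r₂.Prime) (h5₁ : 5 ≤ r₁) (h5₂ : 5 ≤ r₂)
    (h4₁ : r₁ % 4 = 3) (h4₂ : r₂ % 4 = 3)
    (h2₁ : IsSquare (2 : ZMod r₁)) (h3₁ : IsSquare (3 : ZMod r₁))
    (h2₂ : IsSquare (2 : ZMod r₂)) (h3₂ : IsSquare (3 : ZMod r₂))
    {w₁ : ZMod r₁} (hw₁ : w₁ ≠ 0) (hC4₁ : (C4 : ZMod r₁) = w₁ ^ 4) (hC6₁ : (C6 : ZMod r₁) = -w₁ ^ 6)
    {w₂ : ZMod r₂} (hw₂ : w₂ ≠ 0) (hC4₂ : (C4 : ZMod r₂) = w₂ ^ 4) (hC6₂ : (C6 : ZMod r₂) = w₂ ^ 6)
    (hv₁ : (r₁ : ℤ) ^ 5 ∣ C4 ^ 3 - C6 ^ 2) (hv₁' : ¬ (r₁ : ℤ) ^ 6 ∣ C4 ^ 3 - C6 ^ 2)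
    (hv₂ : (r₂ : ℤ) ^ 5 ∣ C4 ^ 3 - C6 ^ 2) (hv₂' : ¬ (r₂ : ℤ) ^ 6 ∣ C4 ^ 3 - C6 ^ 2) : False := by
  have := Fact.mk hr₁
  have := Fact.mk hr₂
  have e₁ : (x : ZMod r₁) = 3 * (-w₁ ^ 2) :=
    root_residue h5₁ hx (neg_ne_zero.mpr (pow_ne_zero _ hw₁)) (by rw [hC4₁]; ring)
      (by rw [hC6₁]; ring) hv₁ hv₁'
  have e₂ : (x : ZMod r₂) = 3 * (w₂ ^ 2) :=
    root_residue h5₂ hx (pow_ne_zero _ hw₂) (by rw [hC4₂]; ring)
      (by rw [hC6₂]; ring) hv₂ hv₂'
  have h3ne : (3 : ZMod r₂) ≠ 0 := by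
    intro h
    have h' : ((3 : ℕ) : ZMod r₂) = 0 := by exact_mod_cast h
    rw [ZMod.natCast_eq_zero_iff] at h'
    have := Nat.le_of_dvd (by norm_num) h'
    omega
  have h3ne' : (3 : ZMod r₁) ≠ 0 := by
    intro h
    have h' : ((3 : ℕ) : ZMod r₁) = 0 := by exact_mod_cast h
    rw [ZMod.natCast_eq_zero_iff] at h'
    have := Nat.le_of_dvd (by norm_num) h'
    omega
  have hx₁ : (x : ZMod r₁) ≠ 0 := by
    rw [e₁]; exact mul_ne_zero h3ne' (neg_ne_zero.mpr (pow_ne_zero _ hw₁))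
  have hx₂ : (x : ZMod r₂) ≠ 0 := by
    rw [e₂]; exact mul_ne_zero h3ne (pow_ne_zero _ hw₂)
  have hx0 : x ≠ 0 := by rintro rfl; simp at hx₁
  obtain ⟨a, b, ha, hab⟩ := natAbs_root hx hx0 hss
  rcases lt_or_gt_of_ne hx0 with hneg | hpos
  · -- `x < 0`: contradiction at `r₂`
    have hxe : (-x : ℤ) = ((b ^ 2 * a : ℕ) : ℤ) := by
      rw [← hab]; exact (Int.ofNat_natAbs_of_nonpos hneg.le).symm
    have hs1 : IsSquare (-(x : ZMod r₂)) := by
      have := congrArg (Int.cast : ℤ → ZMod r₂) hxe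
      rw [Int.cast_neg, Int.cast_natCast] at this
      rw [this]; exact isSquare_of_dvd_six h2₂ h3₂ ha
    have hs2 : IsSquare (x : ZMod r₂) := by
      rw [e₂]; exact h3₂.mul (IsSquare.sq _)
    exact not_isSquare_neg h4₂ hx₂ hs2 hs1
  · have hxe : (x : ℤ) = ((b ^ 2 * a : ℕ) : ℤ) := by
      rw [← hab]; exact (Int.natAbs_of_nonneg hpos.le).symm
    have hs1 : IsSquare (x : ZMod r₁) := by
      have := congrArg (Int.cast : ℤ → ZMod r₁) hxe
      rw [Int.cast_natCast] at this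
      rw [this]; exact isSquare_of_dvd_six h2₁ h3₁ ha
    have hs2 : IsSquare (-(x : ZMod r₁)) := by
      rw [e₁]
      have : -(3 * -w₁ ^ 2) = 3 * w₁ ^ 2 := by ring
      rw [this]; exact h3₁.mul (IsSquare.sq _)
    exact not_isSquare_neg h4₁ hx₁ hs1 hs2

end Fermat.Agent.Switch
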