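import Fermat.Agent.Switch.Cusp
import Mathlib.Algebra.Polynomial.Derivative
import Mathlib.Data.ZMod.Basic
import Mathlib.Algebra.Polynomial.Taylor
import Mathlib.Tactic

/-!
# Local analysis of the family at a prime with a rational cusp
-/

set_option autoImplicit false

open Polynomial

namespace Fermat.Agent.Switch

open Fermat.Agent.S52x

section field

variable {F : Type*} [Field F]

/-- At the cusp `t = 1 / (u² - 66 u v - 11 v²)` the invariants are `(w⁴, -w⁶)`, and the cusp is a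
simple root of `Dp`. -/
theorem cusp_values {u v : F} (h6 : (6 : F) ≠ 0)
    (hΔ : c4f u v ^ 3 - c6f u v ^ 2 ≠ 0) (hd : dc12 (c4f u v) (c6f u v) ≠ 0) :
    ∃ t w : F, w ≠ 0 ∧ C4p (c4f u v) (c6f u v) t = w ^ 4 ∧ C6p (c4f u v) (c6f u v) t = -w ^ 6 ∧
      Dp (c4f u v) (c6f u v) t = 0 ∧
      (derivative (Dp (C (c4f u v)) (C (c6f u v)) X)).eval t ≠ 0 := by
  rw [disc_f] at hΔ
  have hu : u ≠ 0 := by rintro rfl; simp at hΔ
  have hv : v ≠ 0 := by rintro rfl; simp at hΔ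
  have hδ : u ^ 2 - 11 * u * v - v ^ 2 ≠ 0 := by
    intro h; rw [h] at hΔ; simp at hΔ
  have ha : u ^ 2 - 66 * u * v - 11 * v ^ 2 ≠ 0 := by
    intro h
    have := dc12_f u v
    rw [h, zero_mul, zero_mul] at this
    exact hd ((mul_eq_zero.mp this).resolve_right hδ)
  set a : F := u ^ 2 - 66 * u * v - 11 * v ^ 2 with hadef
  set δ : F := u ^ 2 - 11 * u * v - v ^ 2 with hδdef
  have hb : 1 + a⁻¹ * (11 * u ^ 2 - 66 * u * v - v ^ 2) = 12 * δ * a⁻¹ := by
    field_simp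
    rw [hadef, hδdef]; ring
  have h12 : (12 : F) ≠ 0 := by
    intro h
    have : (6 : F) * 6 = 0 := by linear_combination 3 * h
    exact h6 (by simpa using this)
  have hβ : 12 * δ * a⁻¹ ≠ 0 := mul_ne_zero (mul_ne_zero h12 hδ) (inv_ne_zero ha)
  refine ⟨a⁻¹, v * (12 * δ * a⁻¹) ^ 5, mul_ne_zero hv (pow_ne_zero _ hβ), ?_, ?_, ?_, ?_⟩
  · have h := C4_cusp_aux u v a hadef
    have h20 : a ^ 20 ≠ 0 := pow_ne_zero _ ha
    apply mul_left_cancel₀ h20
    have e1 : a ^ 20 * (v * (12 * δ * a⁻¹) ^ 5) ^ 4 = v ^ 4 * (12 * δ) ^ 20 := by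
      field_simp
    rw [e1, ← h, C4p]
    field_simp
    try ring
  · have h := C6_cusp_aux u v a hadef
    have h30 : a ^ 30 ≠ 0 := pow_ne_zero _ ha
    apply mul_left_cancel₀ h30
    have e1 : a ^ 30 * -(v * (12 * δ * a⁻¹) ^ 5) ^ 6 = -(v ^ 6 * (12 * δ) ^ 30) := by
      field_simp
    rw [e1, ← h, C6p]
    field_simp
    try ring
  · have h := Dp_f u v a⁻¹
    rw [← hadef, inv_mul_cancel₀ ha] at h
    simp only [sub_self, zero_mul] at h
    exact (mul_eq_zero.mp h).resolve_right hδ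
  · have h := Dp_f (C u : F[X]) (C v) X
    have hc4 : c4f (C u : F[X]) (C v) = C (c4f u v) := (map_c4f (C : F →+* F[X]) u v).symm
    have hc6 : c6f (C u : F[X]) (C v) = C (c6f u v) := (map_c6f (C : F →+* F[X]) u v).symm
    have hu2 : (C u : F[X]) ^ 2 - 66 * C u * C v - 11 * C v ^ 2 = C a := by
      rw [hadef]
      simp only [map_sub, map_mul, map_pow, map_ofNat]
    have hδ2 : (C u : F[X]) ^ 2 - 11 * C u * C v - C v ^ 2 = C δ := by
      rw [hδdef]
      simp only [map_sub, map_mul, map_pow, map_ofNat]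
    have hb2 : 11 * (C u : F[X]) ^ 2 - 66 * C u * C v - C v ^ 2 =
        C (11 * u ^ 2 - 66 * u * v - v ^ 2) := by
      simp only [map_sub, map_mul, map_pow, map_ofNat]
    rw [hc4, hc6, hu2, hδ2, hb2] at h
    have h' := congrArg (fun P : F[X] => (derivative P).eval a⁻¹) h
    simp only [derivative_mul, derivative_C, derivative_sub, derivative_one, derivative_X,
      mul_zero, add_zero, zero_sub, eval_add, eval_mul, eval_sub, eval_one, eval_X, eval_C,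
      one_mul, eval_neg] at h'
    rw [inv_mul_cancel₀ ha] at h'
    simp only [sub_self, zero_mul, add_zero, eval_pow, eval_sub, eval_one, eval_mul, eval_X,
      eval_C, eval_add, eval_ofNat, inv_mul_cancel₀ ha, hb] at h'
    intro h0
    rw [h0, zero_mul] at h'
    have : -a * (12 * δ * a⁻¹ * -(v ^ 2 * (12 * δ * a⁻¹) ^ 10)) = 0 := by
      rw [h']; ring
    have hne : -a * (12 * δ * a⁻¹ * -(v ^ 2 * (12 * δ * a⁻¹) ^ 10)) ≠ 0 :=
      mul_ne_zero (neg_ne_zero.mpr ha) (mul_ne_zero hβ (neg_ne_zero.mpr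
        (mul_ne_zero (pow_ne_zero _ hv) (pow_ne_zero _ hβ))))
    exact hne this

end field

/-- A simple root modulo `r` lifts to a residue class modulo `r²` of exact valuation one. -/
theorem simple_root_lift {r : ℕ} [Fact r.Prime] (P : ℤ[X]) {x : ZMod r}
    (h0 : (P.map (Int.castRingHom (ZMod r))).eval x = 0)
    (h1 : (derivative (P.map (Int.castRingHom (ZMod r)))).eval x ≠ 0) :
    ∃ y : ℤ, ∀ z : ℤ, (r : ℤ) ^ 2 ∣ z - y → (z : ZMod r) = x ∧ (r : ℤ) ∣ P.eval z ∧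
      ¬ (r : ℤ) ^ 2 ∣ P.eval z := by
  obtain ⟨x₀, hx₀⟩ := ZMod.intCast_surjective x
  have hcast : ∀ z : ℤ, (z : ZMod r) = 0 ↔ (r : ℤ) ∣ z := fun z => ZMod.intCast_zmod_eq_zero_iff_dvd z r
  have hev : ∀ (Q : ℤ[X]) (z : ℤ), ((Q.eval z : ℤ) : ZMod r) =
      (Q.map (Int.castRingHom (ZMod r))).eval (z : ZMod r) := by
    intro Q z
    rw [eval_map]
    have := eval₂_at_apply (Int.castRingHom (ZMod r)) z (p := Q)
    simpa using this.symm
  have key : ∃ y : ℤ, (y : ZMod r) = x ∧ ¬ (r : ℤ) ^ 2 ∣ P.eval y := by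
    by_cases hc : (r : ℤ) ^ 2 ∣ P.eval x₀
    · refine ⟨x₀ + r, by simp [hx₀], ?_⟩
      intro hc2
      obtain ⟨k, hk⟩ := P.binomExpansion x₀ (r : ℤ)
      rw [hk] at hc2
      have h3 : (r : ℤ) ^ 2 ∣ (derivative P).eval x₀ * r := by
        have := dvd_sub (dvd_sub hc2 hc) (Dvd.intro_left k rfl : (r : ℤ) ^ 2 ∣ k * (r : ℤ) ^ 2)
        have e : P.eval x₀ + (derivative P).eval x₀ * r + k * (r : ℤ) ^ 2 - P.eval x₀
            - k * (r : ℤ) ^ 2 = (derivative P).eval x₀ * r := by ring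
        rwa [e] at this
      have hr0 : (r : ℤ) ≠ 0 := by exact_mod_cast (Fact.out : r.Prime).ne_zero
      have h4 : (r : ℤ) ∣ (derivative P).eval x₀ := by
        rw [pow_two] at h3
        exact (mul_dvd_mul_iff_right hr0).mp h3
      rw [← hcast, hev, hx₀] at h4
      rw [derivative_map] at h1
      exact h1 h4
    · exact ⟨x₀, hx₀, hc⟩
  obtain ⟨y, hyx, hy⟩ := key
  refine ⟨y, fun z hz => ?_⟩
  have hzy : (z : ZMod r) = (y : ZMod r) := by
    have : (r : ℤ) ∣ z - y := dvd_trans (dvd_pow_self _ two_ne_zero) hz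
    rw [← hcast] at this
    push_cast at this
    exact sub_eq_zero.mp this
  refine ⟨hzy.trans hyx, ?_, ?_⟩
  · rw [← hcast, hev, hzy, hyx, h0]
  · intro hc
    apply hy
    have hsub : (r : ℤ) ^ 2 ∣ P.eval z - P.eval y := dvd_trans hz (sub_dvd_eval_sub z y P)
    have := dvd_sub hc hsub
    simpa using this

/-- Everything at one prime `r`. -/
theorem local_data {r : ℕ} (hr : r.Prime) (h5 : 5 ≤ r) {a b : ℤ} (hΔ : ¬ (r : ℤ) ∣ a ^ 3 - b ^ 2)
    (hd : ¬ (r : ℤ) ∣ dc12 a b) {u v : ZMod r} (h4 : c4f u v = a) (h6 : c6f u v = b) :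
    ∃ y : ℤ, ∀ z : ℤ, (r : ℤ) ^ 2 ∣ z - y → ∃ w : ZMod r, w ≠ 0 ∧
      ((C4p a b z : ℤ) : ZMod r) = w ^ 4 ∧ ((C6p a b z : ℤ) : ZMod r) = -w ^ 6 ∧
      (r : ℤ) ∣ Dp a b z ∧ ¬ (r : ℤ) ^ 2 ∣ Dp a b z := by
  have := Fact.mk hr
  have hcast : ∀ z : ℤ, (z : ZMod r) = 0 ↔ (r : ℤ) ∣ z := fun z => ZMod.intCast_zmod_eq_zero_iff_dvd z r
  have hsix : (6 : ZMod r) ≠ 0 := by
    intro h
    have h' : ((6 : ℕ) : ZMod r) = 0 := by exact_mod_cast h
    rw [ZMod.natCast_eq_zero_iff] at h'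
    have h2 : r ∣ 2 * 3 := by simpa using h'
    rcases (hr.dvd_mul).mp h2 with h | h
    · have := Nat.le_of_dvd (by norm_num) h; omega
    · have := Nat.le_of_dvd (by norm_num) h; omega
  have hΔ' : c4f u v ^ 3 - c6f u v ^ 2 ≠ 0 := by
    rw [h4, h6]
    intro h
    apply hΔ
    rw [← hcast]; push_cast; exact h
  have hmapd : ((dc12 a b : ℤ) : ZMod r) = dc12 (a : ZMod r) (b : ZMod r) := by
    simp only [dc12]; push_cast; ring
  have hd' : dc12 (c4f u v) (c6f u v) ≠ 0 := by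
    rw [h4, h6, ← hmapd]
    intro h
    exact hd ((hcast _).mp h)
  obtain ⟨t, w, hw, e4, e6, eD, eD'⟩ := cusp_values hsix hΔ' hd'
  rw [h4, h6] at e4 e6 eD eD'
  set P : ℤ[X] := Dp (C a) (C b) X with hP
  have hPmap : P.map (Int.castRingHom (ZMod r)) = Dp (C (a : ZMod r)) (C (b : ZMod r)) X := by
    have := map_Dp (mapRingHom (Int.castRingHom (ZMod r))) (C a) (C b) X
    rw [coe_mapRingHom, map_C, map_C, map_X] at this
    rw [hP, this]
    simp
  have hPev : ∀ z : ℤ, P.eval z = Dp a b z := by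
    intro z
    have := map_Dp (evalRingHom z) (C a) (C b) X
    simpa [hP] using this
  have hPev' : (P.map (Int.castRingHom (ZMod r))).eval t = 0 := by
    rw [hPmap]
    have := map_Dp (evalRingHom t) (C (a : ZMod r)) (C (b : ZMod r)) X
    simp only [coe_evalRingHom, eval_C, eval_X] at this
    rw [this]; exact eD
  have hPder : (derivative (P.map (Int.castRingHom (ZMod r)))).eval t ≠ 0 := by
    rw [hPmap]; exact eD'
  obtain ⟨y, hy⟩ := simple_root_lift P hPev' hPder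
  refine ⟨y, fun z hz => ⟨w, hw, ?_, ?_, ?_, ?_⟩⟩
  · have := map_C4p (Int.castRingHom (ZMod r)) a b z
    simp only [eq_intCast] at this
    rw [this, (hy z hz).1]; exact e4
  · have := map_C6p (Int.castRingHom (ZMod r)) a b z
    simp only [eq_intCast] at this
    rw [this, (hy z hz).1]; exact e6
  · rw [← hPev]; exact (hy z hz).2.1
  · rw [← hPev]; exact (hy z hz).2.2

/-- the exact valuation of the discriminant -/
theorem disc_valuation {r : ℕ} (hr : r.Prime) {a b t : ℤ} (hΔ : ¬ (r : ℤ) ∣ a ^ 3 - b ^ 2)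
    (h1 : (r : ℤ) ∣ Dp a b t) (h2 : ¬ (r : ℤ) ^ 2 ∣ Dp a b t) :
    (r : ℤ) ^ 5 ∣ C4p a b t ^ 3 - C6p a b t ^ 2 ∧ ¬ (r : ℤ) ^ 6 ∣ C4p a b t ^ 3 - C6p a b t ^ 2 := by
  rw [syzygy]
  have hrI : Prime (r : ℤ) := Nat.prime_iff_prime_int.mp hr
  obtain ⟨k, hk⟩ := h1
  have hkr : ¬ (r : ℤ) ∣ k := by
    rintro ⟨j, rfl⟩
    apply h2
    exact ⟨j, by rw [hk]; ring⟩
  constructor
  · rw [hk, mul_pow]
    exact Dvd.dvd.mul_left (Dvd.intro _ rfl) _
  · rw [hk]
    intro h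
    have e : (a ^ 3 - b ^ 2) * ((r : ℤ) * k) ^ 5 = (r : ℤ) ^ 5 * ((a ^ 3 - b ^ 2) * k ^ 5) := by ring
    rw [e, pow_succ] at h
    have h' : (r : ℤ) ∣ (a ^ 3 - b ^ 2) * k ^ 5 :=
      (mul_dvd_mul_iff_left (pow_ne_zero 5 hrI.ne_zero)).mp h
    rcases hrI.dvd_or_dvd h' with h' | h'
    · exact hΔ h'
    · exact hkr (hrI.dvd_of_dvd_pow h')

end Fermat.Agent.Switch
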