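import Mathlib.FieldTheory.PrimitiveElement
import Mathlib.FieldTheory.Minpoly.IsIntegrallyClosed
import Mathlib.RingTheory.Polynomial.ScaleRoots
import Mathlib.RingTheory.Localization.Away.Basic
import Mathlib.Analysis.Calculus.Deriv.Polynomial
import Mathlib.Analysis.Calculus.LocalExtr.Basic
import Mathlib.NumberTheory.SumTwoSquares
import Mathlib.Data.Real.Basic
import Mathlib.Data.Nat.Prime.Factorial
import Mathlib.Tactic

/-!
# Primes `≡ 3 mod 4` with a homomorphism from a real ring of algebraic numbers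

A finitely generated subring of a real number field has ring homomorphisms to `𝔽_r` for
infinitely many primes `r ≡ 3 mod 4` (elementary argument: a monic integer polynomial taking a
negative value at a real point takes a negative value at a rational number `n / m` with
`n ≡ 1`, `m ≡ 0` modulo `4 N`).
-/

set_option autoImplicit false

open Polynomial

namespace Fermat.Agent.Switch

/-- A natural number `≡ 3 mod 4` has a prime factor `≡ 3 mod 4`. -/
lemma exists_prime_factor_mod_four (n : ℕ) (h : n % 4 = 3) :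
    ∃ r : ℕ, r.Prime ∧ r ∣ n ∧ r % 4 = 3 := by
  induction n using Nat.strong_induction_on with
  | _ n ih =>
    have hn1 : n ≠ 1 := by rintro rfl; omega
    obtain ⟨p, hp, hpn⟩ := Nat.exists_prime_and_dvd hn1
    by_cases hp3 : p % 4 = 3
    · exact ⟨p, hp, hpn, hp3⟩
    · obtain ⟨m, rfl⟩ := hpn
      have hm0 : m ≠ 0 := by rintro rfl; simp at h
      have hpodd : p % 2 = 1 := by
        rcases hp.eq_two_or_odd with h2 | h2
        · subst h2; omega
        · exact h2
      have hp1 : p % 4 = 1 := by omega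
      have hm3 : m % 4 = 3 := by
        rw [Nat.mul_mod, hp1] at h
        simpa using h
      have hlt : m < p * m := by
        have := hp.two_le
        nlinarith [Nat.pos_of_ne_zero hm0]
      obtain ⟨r, hr, hrm, hr3⟩ := ih m hlt hm3
      exact ⟨r, hr, Dvd.dvd.mul_left hrm p, hr3⟩

/-- **Euclid with a sign trick.** -/
lemma exists_prime_root (h : ℤ[X]) (hm : h.Monic) (y₀ : ℝ)
    (hy : eval₂ (Int.castRingHom ℝ) y₀ h < 0) (N : ℕ) (hN : N ≠ 0) :
    ∃ r : ℕ, r.Prime ∧ r % 4 = 3 ∧ ¬ r ∣ N ∧ ∃ x₀ : ZMod r,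
      eval₂ (Int.castRingHom (ZMod r)) x₀ h = 0 := by
  -- continuity
  have hcont : Continuous fun y : ℝ => eval₂ (Int.castRingHom ℝ) y h := by
    simp only [← eval_map]
    exact Polynomial.continuous _
  have hopen : IsOpen {y : ℝ | eval₂ (Int.castRingHom ℝ) y h < 0} := isOpen_lt hcont continuous_const
  obtain ⟨ε, hε, hball⟩ := Metric.isOpen_iff.mp hopen y₀ hy
  set B : ℕ := 4 * N with hB
  have hB4 : 4 ≤ B := by
    have := Nat.pos_of_ne_zero hN
    omega
  have hBpos : (0 : ℝ) < B := by exact_mod_cast (by omega : 0 < B)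
  obtain ⟨i, hi⟩ : ∃ i : ℕ, 1 / ε < (B : ℝ) ^ i :=
    pow_unbounded_of_one_lt _ (by exact_mod_cast (by omega : 1 < B))
  set m : ℕ := B ^ (i + 1) with hmdef
  have hmpos : (0 : ℝ) < m := by rw [hmdef]; push_cast; positivity
  have hm0 : m ≠ 0 := by
    intro h0; rw [h0] at hmpos; simp at hmpos
  set k : ℤ := ⌊(y₀ * m - 1) / B⌋ with hk
  set n : ℤ := 1 + B * k with hn
  have hclose : |(n : ℝ) / m - y₀| < ε := by
    have h1 : (k : ℝ) ≤ (y₀ * m - 1) / B := Int.floor_le _
    have h2 : (y₀ * m - 1) / B < k + 1 := Int.lt_floor_add_one _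
    rw [le_div_iff₀ hBpos] at h1
    rw [div_lt_iff₀ hBpos] at h2
    have h3 : (n : ℝ) = 1 + B * k := by rw [hn]; push_cast; ring
    have h4 : (n : ℝ) / m - y₀ = (n - y₀ * m) / m := by field_simp
    rw [h4, abs_div, abs_of_pos hmpos, div_lt_iff₀ hmpos]
    have h5 : |(n : ℝ) - y₀ * m| ≤ B := by
      rw [abs_le, h3]
      constructor <;> nlinarith
    have h6 : (B : ℝ) < ε * m := by
      rw [hmdef]; push_cast; rw [pow_succ]
      have : 1 < ε * (B : ℝ) ^ i := by
        rw [div_lt_iff₀ hε] at hi; linarith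
      nlinarith
    linarith
  have hneg : eval₂ (Int.castRingHom ℝ) ((n : ℝ) / m) h < 0 :=
    hball (by rw [Metric.mem_ball, Real.dist_eq]; exact hclose)
  -- the homogenised value
  set H : ℤ := eval n (h.scaleRoots (m : ℤ)) with hH
  have hHR : (H : ℝ) = (m : ℝ) ^ h.natDegree * eval₂ (Int.castRingHom ℝ) ((n : ℝ) / m) h := by
    have h1 := scaleRoots_eval₂_mul (p := h) (Int.castRingHom ℝ) ((n : ℝ) / m) (m : ℤ)
    have h2 : (Int.castRingHom ℝ) (m : ℤ) * ((n : ℝ) / m) = Int.castRingHom ℝ n := by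
      simp only [eq_intCast, Int.cast_natCast]
      field_simp
    rw [h2, eval₂_at_apply] at h1
    simpa [hH] using h1
  have hHneg : H < 0 := by
    have : (H : ℝ) < 0 := by
      rw [hHR]
      exact mul_neg_of_pos_of_neg (pow_pos hmpos _) hneg
    exact_mod_cast this
  -- congruence modulo `B`
  have hHB : (H : ZMod B) = 1 := by
    have hB1 : Fact (1 < B) := ⟨by omega⟩
    have h1 : (H : ZMod B) = eval₂ (Int.castRingHom (ZMod B)) (n : ZMod B)
        (h.scaleRoots (m : ℤ)) := by
      rw [hH]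
      have := eval₂_at_apply (Int.castRingHom (ZMod B)) n (p := h.scaleRoots (m : ℤ))
      simpa using this.symm
    have hmB : ((m : ℤ) : ZMod B) = 0 := by
      rw [hmdef]; push_cast
      rw [ZMod.natCast_self, zero_pow (Nat.succ_ne_zero i)]
    have hnB : (n : ZMod B) = 1 := by
      rw [hn]; push_cast
      rw [ZMod.natCast_self]; ring
    rw [h1, ← eval_map, map_scaleRoots _ _ _ (by rw [hm.leadingCoeff]; simp), eq_intCast, hmB,
      scaleRoots_zero, hnB]
    have hm' : (h.map (Int.castRingHom (ZMod B))).Monic := hm.map _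
    rw [hm'.leadingCoeff]
    simp
  have hBdvd : (B : ℤ) ∣ H - 1 := by
    rw [← ZMod.intCast_zmod_eq_zero_iff_dvd]
    push_cast; rw [hHB]; ring
  have hmod : H.natAbs % 4 = 3 := by
    have h4 : (4 : ℤ) ∣ H - 1 := dvd_trans ⟨N, by rw [hB]; push_cast; ring⟩ hBdvd
    omega
  obtain ⟨r, hr, hrH, hr3⟩ := exists_prime_factor_mod_four _ hmod
  have hrH' : (r : ℤ) ∣ H := Int.natCast_dvd.mpr hrH
  have hrB : ¬ r ∣ B := by
    intro hd
    have h1 : (r : ℤ) ∣ H - 1 := dvd_trans (Int.natCast_dvd_natCast.mpr hd) hBdvd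
    have h2 : (r : ℤ) ∣ 1 := by
      have := dvd_sub hrH' h1
      simpa using this
    have : r ∣ 1 := by exact_mod_cast h2
    exact hr.one_lt.ne' (Nat.dvd_one.mp this)
  have hrN : ¬ r ∣ N := fun hd => hrB (Dvd.dvd.mul_left hd 4)
  have hrm : ¬ r ∣ m := fun hd => hrB (hr.dvd_of_dvd_pow hd)
  have := Fact.mk hr
  have hm0' : ((m : ℕ) : ZMod r) ≠ 0 := by
    rw [Ne, ZMod.natCast_eq_zero_iff]; exact hrm
  refine ⟨r, hr, hr3, hrN, (n : ZMod r) / (m : ZMod r), ?_⟩
  have h1 := scaleRoots_eval₂_mul (p := h) (Int.castRingHom (ZMod r)) ((n : ZMod r) / m) (m : ℤ)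
  have h2 : (Int.castRingHom (ZMod r)) (m : ℤ) * ((n : ZMod r) / m) =
      Int.castRingHom (ZMod r) n := by
    simp only [eq_intCast, Int.cast_natCast]
    field_simp
  rw [h2, eval₂_at_apply] at h1
  have h3 : (Int.castRingHom (ZMod r)) (eval n (h.scaleRoots (m : ℤ))) = 0 := by
    rw [eq_intCast, ← hH]
    exact (ZMod.intCast_zmod_eq_zero_iff_dvd H r).mpr hrH'
  rw [h3] at h1
  rcases mul_eq_zero.mp h1.symm with h4 | h4
  · exact absurd h4 (pow_ne_zero _ (by simpa using hm0'))
  · exact h4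

/-- A polynomial with a simple real root takes negative values. -/
lemma exists_neg_value (h : ℝ[X]) (θ : ℝ) (h0 : eval θ h = 0)
    (h1 : eval θ (derivative h) ≠ 0) : ∃ y : ℝ, eval y h < 0 := by
  by_contra hcon
  push Not at hcon
  have hmin : IsLocalMin (fun y => eval y h) θ := by
    apply Filter.Eventually.of_forall
    intro y
    change eval θ h ≤ eval y h
    rw [h0]; exact hcon y
  exact h1 (hmin.hasDerivAt_eq_zero (h.hasDerivAt θ))

section hom

variable {K : IntermediateField ℚ ℝ}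

/-- Every element of `ℚ(θ)` becomes an element of `ℤ[θ]` after multiplication by an integer. -/
lemma exists_mul_mem {θ : K} (htop : Algebra.adjoin ℚ {θ} = ⊤) (s : K) :
    ∃ n : ℕ, n ≠ 0 ∧ (n : K) * s ∈ Algebra.adjoin ℤ ({θ} : Set K) := by
  have hs : s ∈ Algebra.adjoin ℚ ({θ} : Set K) := by rw [htop]; trivial
  induction hs using Algebra.adjoin_induction with
  | mem x hx =>
    exact ⟨1, one_ne_zero, by simpa using Algebra.subset_adjoin hx⟩
  | algebraMap q =>
    refine ⟨q.den, q.den_nz, ?_⟩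
    have : ((q.den : ℕ) : K) * algebraMap ℚ K q = algebraMap ℤ K q.num := by
      have h1 : ((q.den : ℚ) * q) = q.num := Rat.den_mul_eq_num q
      have h2 := congrArg (algebraMap ℚ K) h1
      rw [map_mul] at h2
      simpa using h2
    rw [this]
    exact Subalgebra.algebraMap_mem _ _
  | add x y _ _ hx hy =>
    obtain ⟨n, hn, hnx⟩ := hx
    obtain ⟨m, hm, hmy⟩ := hy
    refine ⟨n * m, mul_ne_zero hn hm, ?_⟩
    have : ((n * m : ℕ) : K) * (x + y) = (m : K) * (n * x) + (n : K) * (m * y) := by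
      push_cast; ring
    rw [this]
    exact add_mem (mul_mem (natCast_mem _ _) hnx) (mul_mem (natCast_mem _ _) hmy)
  | mul x y _ _ hx hy =>
    obtain ⟨n, hn, hnx⟩ := hx
    obtain ⟨m, hm, hmy⟩ := hy
    refine ⟨n * m, mul_ne_zero hn hm, ?_⟩
    have : ((n * m : ℕ) : K) * (x * y) = (n * x) * (m * y) := by
      push_cast; ring
    rw [this]
    exact mul_mem hnx hmy

/-- There is an integral primitive element. -/
lemma exists_integral_primitive [FiniteDimensional ℚ K] :
    ∃ θ : K, IsIntegral ℤ θ ∧ Algebra.adjoin ℚ {θ} = ⊤ := by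
  obtain ⟨θ₀, hθ₀⟩ := Field.exists_primitive_element ℚ K
  have halg : IsAlgebraic ℤ θ₀ := by
    have : IsAlgebraic ℚ θ₀ := Algebra.IsAlgebraic.isAlgebraic θ₀
    exact (IsFractionRing.isAlgebraic_iff ℤ ℚ K).mpr this
  obtain ⟨y, hy0, hy⟩ := halg.exists_integral_multiple
  refine ⟨y • θ₀, hy, ?_⟩
  have h1 : IntermediateField.adjoin ℚ {y • θ₀} = ⊤ := by
    rw [← top_le_iff, ← hθ₀, IntermediateField.adjoin_simple_le_iff]
    have hmem : y • θ₀ ∈ IntermediateField.adjoin ℚ {y • θ₀} :=
      IntermediateField.mem_adjoin_simple_self ℚ _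
    have hyK : (y : K) ≠ 0 := by exact_mod_cast hy0
    have hcancel : (y : K)⁻¹ * (y • θ₀) = θ₀ := by
      rw [zsmul_eq_mul]; field_simp
    have hmem2 := mul_mem (inv_mem (intCast_mem (IntermediateField.adjoin ℚ {y • θ₀}) y)) hmem
    rwa [hcancel] at hmem2
  have h2 : IsAlgebraic ℚ (y • θ₀) := Algebra.IsAlgebraic.isAlgebraic _
  have h3 := IntermediateField.adjoin_simple_toSubalgebra_of_isAlgebraic h2
  rw [h1, IntermediateField.top_toSubalgebra] at h3
  exact h3.symm

/-- **Homomorphisms to prime fields.** -/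
theorem exists_prime_hom [FiniteDimensional ℚ K] (S : Finset K) (N : ℕ) :
    ∃ r : ℕ, r.Prime ∧ N < r ∧ r % 4 = 3 ∧
      Nonempty (Algebra.adjoin ℤ (S : Set K) →+* ZMod r) := by
  classical
  obtain ⟨θ, hθ, htop⟩ := exists_integral_primitive (K := K)
  choose d hd0 hd using exists_mul_mem (K := K) htop
  set N' : ℕ := N.factorial * ∏ s ∈ S, d s with hN'
  have hN'0 : N' ≠ 0 := mul_ne_zero (Nat.factorial_ne_zero _)
    (Finset.prod_ne_zero_iff.mpr fun s _ => hd0 s)
  set h : ℤ[X] := minpoly ℤ θ with hh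
  have hmonic : h.Monic := minpoly.monic hθ
  -- a negative value
  have hval : ∃ y : ℝ, eval₂ (Int.castRingHom ℝ) y h < 0 := by
    have hQ : minpoly ℚ θ = h.map (algebraMap ℤ ℚ) :=
      minpoly.isIntegrallyClosed_eq_field_fractions' ℚ hθ
    have hsep : (minpoly ℚ θ).Separable := (minpoly.irreducible hθ.tower_top).separable
    have hmapR : h.map (Int.castRingHom ℝ) = (minpoly ℚ θ).map (algebraMap ℚ ℝ) := by
      rw [hQ, Polynomial.map_map]
      congr 1
    have h0 : eval (θ : ℝ) (h.map (Int.castRingHom ℝ)) = 0 := by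
      rw [hmapR, eval_map, ← aeval_def]
      have := congrArg (algebraMap K ℝ) (minpoly.aeval ℚ θ)
      rw [map_zero, ← aeval_algebraMap_apply] at this
      exact this
    have h1 : eval (θ : ℝ) (derivative (h.map (Int.castRingHom ℝ))) ≠ 0 := by
      rw [hmapR, derivative_map, eval_map, ← aeval_def]
      apply hsep.aeval_derivative_ne_zero
      have := congrArg (algebraMap K ℝ) (minpoly.aeval ℚ θ)
      rw [map_zero, ← aeval_algebraMap_apply] at this
      exact this
    obtain ⟨y, hy⟩ := exists_neg_value _ _ h0 h1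
    exact ⟨y, by rwa [← eval_map]⟩
  obtain ⟨y, hy⟩ := hval
  obtain ⟨r, hr, hr3, hrN, x₀, hx₀⟩ := exists_prime_root h hmonic y hy N' hN'0
  have := Fact.mk hr
  have hNr : N < r := by
    by_contra hcon
    push Not at hcon
    exact hrN (Dvd.dvd.mul_right ((Nat.Prime.dvd_factorial hr).mpr hcon) _)
  refine ⟨r, hr, hNr, hr3, ?_⟩
  -- the homomorphism on `B = ℤ[θ]`
  let B := Algebra.adjoin ℤ ({θ} : Set K)
  let φ₀ : AdjoinRoot h →+* ZMod r := AdjoinRoot.lift (Int.castRingHom (ZMod r)) x₀ hx₀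
  let φ : B →+* ZMod r := φ₀.comp (minpoly.equivAdjoin hθ).symm.toRingEquiv.toRingHom
  -- localisation at `N'`
  let L := Localization.Away (N' : B)
  have hN'K : (N' : K) ≠ 0 := by exact_mod_cast hN'0
  have hunitK : IsUnit (algebraMap B K (N' : B)) := by
    rw [map_natCast]; exact IsUnit.mk0 _ hN'K
  let ι : L →+* K := IsLocalization.Away.lift (N' : B) (g := algebraMap B K) hunitK
  have hunitr : IsUnit (φ (N' : B)) := by
    rw [map_natCast]
    apply IsUnit.mk0
    rw [Ne, ZMod.natCast_eq_zero_iff]; exact hrN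
  let ψ : L →+* ZMod r := IsLocalization.Away.lift (N' : B) (g := φ) hunitr
  have hinj : Function.Injective ι := by
    apply (IsLocalization.lift_injective_iff _).mpr
    intro a b
    constructor
    · intro hab
      have hle : Submonoid.powers (N' : B) ≤ nonZeroDivisors B := by
        apply powers_le_nonZeroDivisors_of_noZeroDivisors
        exact_mod_cast hN'0
      exact congrArg _ (IsLocalization.injective L hle hab)
    · intro hab
      exact congrArg _ ((FaithfulSMul.algebraMap_injective B K) hab)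
  have hιB : ∀ b : B, ι (algebraMap B L b) = algebraMap B K b :=
    fun b => IsLocalization.Away.lift_eq _ _ b
  -- `S` is contained in the range
  have hrange : ∀ s ∈ S, s ∈ ι.range := by
    intro s hs
    have hdvd : d s ∣ N' := Dvd.dvd.mul_left (Finset.dvd_prod_of_mem d hs) _
    obtain ⟨c, hc⟩ := hdvd
    have hmem : (N' : K) * s ∈ B := by
      rw [hc]; push_cast
      rw [mul_comm (d s : K) c, mul_assoc]
      exact mul_mem (natCast_mem _ _) (hd s)
    have hunitL : IsUnit (algebraMap B L (N' : B)) := IsLocalization.Away.algebraMap_isUnit _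
    obtain ⟨e, he⟩ := hunitL
    refine ⟨↑e⁻¹ * algebraMap B L ⟨_, hmem⟩, ?_⟩
    have h1 : ι (↑e⁻¹ * algebraMap B L ⟨_, hmem⟩) * (N' : K) = (N' : K) * s := by
      have h2 : ι (algebraMap B L (N' : B)) = (N' : K) := by
        rw [hιB, map_natCast]
      have h3 : ι (↑e⁻¹) * (N' : K) = 1 := by
        rw [← h2, ← he, ← map_mul, Units.inv_mul, map_one]
      rw [map_mul, mul_assoc, mul_comm (ι (algebraMap B L _)) (N' : K), ← mul_assoc, h3, one_mul,
        hιB]
      rfl
    exact mul_right_cancel₀ hN'K (h1.trans (mul_comm _ _))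
  have hsub : ∀ x : K, x ∈ Algebra.adjoin ℤ (S : Set K) → x ∈ ι.range := by
    intro x hx
    induction hx using Algebra.adjoin_induction with
    | mem x hx => exact hrange x hx
    | algebraMap z => rw [eq_intCast]; exact intCast_mem _ _
    | add x y _ _ hx hy => exact add_mem hx hy
    | mul x y _ _ hx hy => exact mul_mem hx hy
  let e : L ≃+* ι.range := RingEquiv.ofBijective ι.rangeRestrict
    ⟨fun a b hab => hinj (congrArg Subtype.val hab), ι.rangeRestrict_surjective⟩
  let j : Algebra.adjoin ℤ (S : Set K) →+* ι.range :=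
    (Algebra.adjoin ℤ (S : Set K)).val.toRingHom.codRestrict ι.range
      (fun x => hsub _ x.2)
  exact ⟨ψ.comp (e.symm.toRingHom.comp j)⟩

end hom

end Fermat.Agent.Switch
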