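import Fermat.Agent.Switch.RealSol
import Fermat.Agent.Switch.PrimeHom

/-!
# Points on the icosahedral plane over `𝔽_r` for infinitely many primes `r ≡ 3 mod 4`
-/

set_option autoImplicit false

namespace Fermat.Agent.Switch

theorem exists_prime_point (c4 c6 : ℤ) (h : c4 ^ 3 - c6 ^ 2 ≠ 0) (N : ℕ) :
    ∃ r : ℕ, r.Prime ∧ N < r ∧ r % 4 = 3 ∧ IsSquare (2 : ZMod r) ∧ IsSquare (3 : ZMod r) ∧
      ∃ u v : ZMod r, c4f u v = c4 ∧ c6f u v = c6 := by
  classical
  obtain ⟨u, v, hu, hv, h4, h6⟩ := exists_real_point c4 c6 h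
  have h2 : Real.sqrt 2 ∈ algebraicClosure ℚ ℝ := by
    rw [mem_algebraicClosure_iff']
    have : IsIntegral ℚ (Real.sqrt 2 ^ 2) := by
      rw [Real.sq_sqrt (by norm_num)]
      exact_mod_cast (isIntegral_algebraMap (R := ℚ) (A := ℝ) (x := 2))
    exact this.of_pow (by norm_num)
  have h3 : Real.sqrt 3 ∈ algebraicClosure ℚ ℝ := by
    rw [mem_algebraicClosure_iff']
    have : IsIntegral ℚ (Real.sqrt 3 ^ 2) := by
      rw [Real.sq_sqrt (by norm_num)]
      exact_mod_cast (isIntegral_algebraMap (R := ℚ) (A := ℝ) (x := 3))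
    exact this.of_pow (by norm_num)
  set T : Set ℝ := {u, v, Real.sqrt 2, Real.sqrt 3} with hT
  have hTfin : T.Finite := by rw [hT]; exact Set.toFinite _
  have : Finite T := hTfin
  have hfd : FiniteDimensional ℚ (IntermediateField.adjoin ℚ T) := by
    apply IntermediateField.finiteDimensional_adjoin
    intro x hx
    rw [← mem_algebraicClosure_iff']
    simp only [hT, Set.mem_insert_iff, Set.mem_singleton_iff] at hx
    rcases hx with rfl | rfl | rfl | rfl
    · exact hu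
    · exact hv
    · exact h2
    · exact h3
  have hmem : ∀ x ∈ T, x ∈ IntermediateField.adjoin ℚ T :=
    fun x hx => IntermediateField.subset_adjoin ℚ T hx
  let u' : IntermediateField.adjoin ℚ T := ⟨u, hmem u (by simp [hT])⟩
  let v' : IntermediateField.adjoin ℚ T := ⟨v, hmem v (by simp [hT])⟩
  let a' : IntermediateField.adjoin ℚ T := ⟨Real.sqrt 2, hmem _ (by simp [hT])⟩
  let b' : IntermediateField.adjoin ℚ T := ⟨Real.sqrt 3, hmem _ (by simp [hT])⟩
  obtain ⟨r, hr, hNr, hr4, ⟨f⟩⟩ :=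
    exists_prime_hom (K := IntermediateField.adjoin ℚ T) {u', v', a', b'} N
  set A := Algebra.adjoin ℤ ((({u', v', a', b'} : Finset (IntermediateField.adjoin ℚ T)) :
    Set (IntermediateField.adjoin ℚ T))) with hA
  have hmA : ∀ x ∈ ({u', v', a', b'} : Finset (IntermediateField.adjoin ℚ T)), x ∈ A :=
    fun x hx => Algebra.subset_adjoin (by exact_mod_cast hx)
  let U : A := ⟨u', hmA _ (by simp)⟩
  let V : A := ⟨v', hmA _ (by simp)⟩
  let P : A := ⟨a', hmA _ (by simp)⟩
  let Q : A := ⟨b', hmA _ (by simp)⟩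
  -- the embedding into ℝ
  let g : A →+* ℝ := (algebraMap (IntermediateField.adjoin ℚ T) ℝ).comp A.val.toRingHom
  have hg : Function.Injective g := by
    intro x y hxy
    exact Subtype.ext (Subtype.ext hxy)
  have hgU : g U = u := rfl
  have hgV : g V = v := rfl
  have hgP : g P = Real.sqrt 2 := rfl
  have hgQ : g Q = Real.sqrt 3 := rfl
  have e4 : c4f U V = (c4 : A) := hg (by rw [map_c4f, hgU, hgV, h4, map_intCast])
  have e6 : c6f U V = (c6 : A) := hg (by rw [map_c6f, hgU, hgV, h6, map_intCast])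
  have e2 : P ^ 2 = 2 := hg (by
    rw [map_pow, hgP, Real.sq_sqrt (by norm_num), map_ofNat])
  have e3 : Q ^ 2 = 3 := hg (by
    rw [map_pow, hgQ, Real.sq_sqrt (by norm_num), map_ofNat])
  refine ⟨r, hr, hNr, hr4, ⟨f P, ?_⟩, ⟨f Q, ?_⟩, f U, f V, ?_, ?_⟩
  · rw [← map_mul, ← pow_two, e2, map_ofNat]
  · rw [← map_mul, ← pow_two, e3, map_ofNat]
  · rw [← map_c4f, e4, map_intCast]
  · rw [← map_c6f, e6, map_intCast]

end Fermat.Agent.Switch
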