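import Fermat.Agent.S52.Semistable
import Fermat.Agent.S51_Galois
import Fermat.Agent.Switch.Core
import Fermat.Agent.Switch.Points
import Fermat.Agent.Switch.Local
import Fermat.Prelude.Def_FLTPrelim_ModularRep
import Mathlib.NumberTheory.Real.Irrational

/-!
# The mod 3 irreducibility of a member of the family
-/

set_option autoImplicit false

namespace Fermat.Agent.Switch

open Fermat.Agent.S52x

lemma sq_eq_eleven {P Q : ℤ} (h : P ^ 2 = 11 * Q ^ 2) : Q = 0 := by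
  by_contra hQ
  have hirr : Irrational (Real.sqrt 11) := by
    have := Nat.Prime.irrational_sqrt (p := 11) (by norm_num)
    exact_mod_cast this
  apply hirr
  refine ⟨|(P : ℚ) / Q|, ?_⟩
  have hQR : (Q : ℝ) ≠ 0 := by exact_mod_cast hQ
  have h2 : (|(P : ℝ) / Q|) ^ 2 = 11 := by
    rw [sq_abs, div_pow]
    have : (P : ℝ) ^ 2 = 11 * (Q : ℝ) ^ 2 := by exact_mod_cast h
    rw [this]; field_simp
  push_cast
  rw [← h2, Real.sqrt_sq (abs_nonneg _)]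

lemma dc12_ne_zero {a b : ℤ} (h : a ^ 3 - b ^ 2 ≠ 0) : dc12 a b ≠ 0 := by
  intro h0
  simp only [dc12] at h0
  have h1 : (91125 * a ^ 3 - 96768 * b ^ 2) ^ 2 = 11 * (1728 * b ^ 2) ^ 2 := by
    linear_combination 91125 * h0
  have hb := sq_eq_eleven h1
  have hb0 : b = 0 := by
    have : b ^ 2 = 0 := by omega
    simpa using this
  subst hb0
  have ha : a ^ 6 = 0 := by omega
  have ha0 : a = 0 := by simpa using ha
  subst ha0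
  simp at h

lemma not_dvd_of_lt {r : ℕ} {z : ℤ} (hz : z ≠ 0) (h : z.natAbs < r) : ¬ (r : ℤ) ∣ z := by
  intro hd
  have := Nat.le_of_dvd (Int.natAbs_pos.mpr hz) (Int.natCast_dvd.mp hd)
  omega

/-- simultaneous congruences -/
lemma exists_s {M : ℤ} {r₁ r₂ : ℕ} (hr₁ : r₁.Prime) (hr₂ : r₂.Prime) (hne : r₁ ≠ r₂)
    (h₁ : ¬ (r₁ : ℤ) ∣ M) (h₂ : ¬ (r₂ : ℤ) ∣ M) (y₁ y₂ : ℤ) :
    ∃ s : ℤ, (r₁ : ℤ) ^ 2 ∣ M * s - y₁ ∧ (r₂ : ℤ) ^ 2 ∣ M * s - y₂ := by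
  have hp₁ : Prime (r₁ : ℤ) := Nat.prime_iff_prime_int.mp hr₁
  have hp₂ : Prime (r₂ : ℤ) := Nat.prime_iff_prime_int.mp hr₂
  have hc₁ : IsCoprime M ((r₁ : ℤ) ^ 2) :=
    (IsCoprime.pow_right ((Prime.coprime_iff_not_dvd hp₁).mpr h₁).symm)
  have hc₂ : IsCoprime M ((r₂ : ℤ) ^ 2) :=
    (IsCoprime.pow_right ((Prime.coprime_iff_not_dvd hp₂).mpr h₂).symm)
  have hc₁₂ : IsCoprime ((r₁ : ℤ) ^ 2) ((r₂ : ℤ) ^ 2) := by
    apply IsCoprime.pow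
    rw [Nat.isCoprime_iff_coprime]
    exact (Nat.coprime_primes hr₁ hr₂).mpr hne
  obtain ⟨α, β, hαβ⟩ := IsCoprime.mul_right hc₁ hc₂
  obtain ⟨γ, δ, hγδ⟩ := hc₁₂
  refine ⟨α * (y₂ * γ * (r₁ : ℤ) ^ 2 + y₁ * δ * (r₂ : ℤ) ^ 2), ?_, ?_⟩
  · refine ⟨y₂ * γ - y₁ * γ - β * (r₂ : ℤ) ^ 2 * (y₂ * γ * (r₁ : ℤ) ^ 2 + y₁ * δ * (r₂ : ℤ) ^ 2), ?_⟩
    linear_combination (y₂ * γ * (r₁ : ℤ) ^ 2 + y₁ * δ * (r₂ : ℤ) ^ 2) * hαβ + y₁ * hγδ
  · refine ⟨y₁ * δ - y₂ * δ - β * (r₁ : ℤ) ^ 2 * (y₂ * γ * (r₁ : ℤ) ^ 2 + y₁ * δ * (r₂ : ℤ) ^ 2), ?_⟩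
    linear_combination (y₂ * γ * (r₁ : ℤ) ^ 2 + y₁ * δ * (r₂ : ℤ) ^ 2) * hαβ + y₂ * hγδ

/-- A curve over `ℤ` whose `3`-division quartic has no integral root is irreducible mod 3. -/
theorem irreducible_of_no_root (W : WeierstrassCurve ℤ) (hΔ : W.Δ ≠ 0)
    (h : ∀ x : ℤ, x ^ 4 - 6 * W.c₄ * x ^ 2 - 8 * W.c₆ * x - 3 * W.c₄ ^ 2 ≠ 0) :
    W.ModRepIsIrreducible 3 := by
  by_contra hcon
  have hΔQ : (W.map (Int.castRingHom ℚ)).Δ ≠ 0 := by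
    rw [WeierstrassCurve.map_Δ]
    simpa using hΔ
  have fixed_rational : ∀ x : AlgebraicClosure ℚ,
      (∀ σ : AlgebraicClosure ℚ ≃ₐ[ℚ] AlgebraicClosure ℚ, σ x = x) →
      ∃ q : ℚ, algebraMap ℚ (AlgebraicClosure ℚ) q = x := by
    intro x hx
    have : Algebra.IsAlgebraic ℚ (AlgebraicClosure ℚ) := AlgebraicClosure.isAlgebraic ℚ
    have : IsAlgClosure ℚ (AlgebraicClosure ℚ) := ⟨AlgebraicClosure.isAlgClosed ℚ, this⟩
    have : IsGalois ℚ (AlgebraicClosure ℚ) := IsAlgClosure.isGalois ℚ _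
    have h := (InfiniteGalois.mem_bot_iff_fixed (k := ℚ) (K := AlgebraicClosure ℚ) x).mpr hx
    rwa [IntermediateField.mem_bot] at h
  obtain ⟨x₀, hx₀⟩ := S51gal.three (K := AlgebraicClosure ℚ)
    (W := W.map (Int.castRingHom ℚ)) hΔQ fixed_rational hcon
  set V := W.map (Int.castRingHom ℚ) with hV
  -- the rescaled root
  set X : ℚ := 12 * x₀ + V.b₂ with hX
  have hc4 : V.c₄ = (W.c₄ : ℚ) := by rw [hV, WeierstrassCurve.map_c₄]; rfl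
  have hc6 : V.c₆ = (W.c₆ : ℚ) := by rw [hV, WeierstrassCurve.map_c₆]; rfl
  have hXroot : X ^ 4 - 6 * (W.c₄ : ℚ) * X ^ 2 - 8 * (W.c₆ : ℚ) * X - 3 * (W.c₄ : ℚ) ^ 2 = 0 := by
    rw [← hc4, ← hc6]
    simp only [S51tor.ψ₃] at hx₀
    simp only [hX, WeierstrassCurve.c₄, WeierstrassCurve.c₆]
    have hrel := V.b_relation
    linear_combination 6912 * hx₀ - 1728 * hrel
  -- integrality
  have hint : IsIntegral ℤ X := by
    refine ⟨Polynomial.X ^ 4 - Polynomial.C (6 * W.c₄) * Polynomial.X ^ 2 -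
      Polynomial.C (8 * W.c₆) * Polynomial.X - Polynomial.C (3 * W.c₄ ^ 2), ?_, ?_⟩
    · rw [sub_sub, sub_sub]
      apply Polynomial.monic_X_pow_sub
      compute_degree!
    · simp only [Polynomial.eval₂_sub, Polynomial.eval₂_mul, Polynomial.eval₂_pow,
        Polynomial.eval₂_X, Polynomial.eval₂_C]
      simp only [eq_intCast]
      push_cast
      linarith [hXroot]
  obtain ⟨x, hx⟩ := IsIntegrallyClosed.isIntegral_iff.mp hint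
  rw [eq_intCast] at hx
  apply h x
  have : ((x ^ 4 - 6 * W.c₄ * x ^ 2 - 8 * W.c₆ * x - 3 * W.c₄ ^ 2 : ℤ) : ℚ) = 0 := by
    push_cast; rw [hx]; exact hXroot
  exact_mod_cast this

/-- **Existence of a member of the family with irreducible mod 3 representation.** -/
theorem exists_irreducible (W : WeierstrassCurve ℤ) (hΔ : W.Δ ≠ 0) (hW : W.IsSemistableModel) :
    ∃ s : ℤ, (famCurve W (30 * W.Δ * s)).ModRepIsIrreducible 3 := by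
  set a := W.c₄ with ha
  set b := W.c₆ with hb
  have hab : a ^ 3 - b ^ 2 = 1728 * W.Δ := W.c_relation.symm
  have hab0 : a ^ 3 - b ^ 2 ≠ 0 := by
    rw [hab]; exact mul_ne_zero (by norm_num) hΔ
  have hab0' : a ^ 3 - (-b) ^ 2 ≠ 0 := by
    have : a ^ 3 - (-b) ^ 2 = a ^ 3 - b ^ 2 := by ring
    rw [this]; exact hab0
  have hd0 := dc12_ne_zero hab0
  have hd0' : dc12 a (-b) = dc12 a b := by simp only [dc12]; ring
  set M : ℤ := 1728 * (30 * W.Δ) with hM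
  have hM0 : M ≠ 0 := mul_ne_zero (by norm_num) (mul_ne_zero (by norm_num) hΔ)
  set N : ℕ := 5 + M.natAbs + (a ^ 3 - b ^ 2).natAbs + (dc12 a b).natAbs with hN
  obtain ⟨r₁, hr₁, hNr₁, h4₁, h2₁, h3₁, u₁, v₁, hu₁, hv₁⟩ := exists_prime_point a b hab0 N
  obtain ⟨r₂, hr₂, hNr₂, h4₂, h2₂, h3₂, u₂, v₂, hu₂, hv₂⟩ :=
    exists_prime_point a (-b) hab0' (N + r₁)
  have hM₁ : ¬ (r₁ : ℤ) ∣ M := not_dvd_of_lt hM0 (by omega)
  have hM₂ : ¬ (r₂ : ℤ) ∣ M := not_dvd_of_lt hM0 (by omega)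
  have hΔ₁ : ¬ (r₁ : ℤ) ∣ a ^ 3 - b ^ 2 := not_dvd_of_lt hab0 (by omega)
  have hΔ₂ : ¬ (r₂ : ℤ) ∣ a ^ 3 - b ^ 2 := not_dvd_of_lt hab0 (by omega)
  have hΔ₂' : ¬ (r₂ : ℤ) ∣ a ^ 3 - (-b) ^ 2 := by
    have : a ^ 3 - (-b) ^ 2 = a ^ 3 - b ^ 2 := by ring
    rw [this]; exact hΔ₂
  have hd₁ : ¬ (r₁ : ℤ) ∣ dc12 a b := not_dvd_of_lt hd0 (by omega)
  have hd₂ : ¬ (r₂ : ℤ) ∣ dc12 a (-b) := by
    rw [hd0']; exact not_dvd_of_lt hd0 (by omega)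
  obtain ⟨y₁, hy₁⟩ := local_data hr₁ (by omega) hΔ₁ hd₁ hu₁ hv₁
  obtain ⟨y₂, hy₂⟩ := local_data hr₂ (by omega) hΔ₂' hd₂ hu₂ hv₂
  obtain ⟨s, hs₁, hs₂⟩ := exists_s hr₁ hr₂ (by omega) hM₁ hM₂ y₁ (-y₂)
  have ht : 1728 * (30 * W.Δ * s) = M * s := by rw [hM]; ring
  refine ⟨s, ?_⟩
  obtain ⟨w₁, hw₁, e4₁, e6₁, eD₁, eD₁'⟩ := hy₁ (M * s) hs₁
  obtain ⟨w₂, hw₂, e4₂, e6₂, eD₂, eD₂'⟩ := hy₂ (-(M * s)) (by
    have : -(M * s) - y₂ = -(M * s - (-y₂)) := by ring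
    rw [this]; exact (dvd_neg).mpr hs₂)
  rw [C4p_neg] at e4₂
  rw [C6p_neg] at e6₂
  rw [Dp_neg] at eD₂ eD₂'
  have hv₁ := disc_valuation hr₁ hΔ₁ eD₁ eD₁'
  have hv₂ := disc_valuation hr₂ hΔ₂ eD₂ eD₂'
  have hc4 : (famCurve W (30 * W.Δ * s)).c₄ = C4p a b (M * s) := by
    rw [famCurve_c₄, ht]
  have hc6 : (famCurve W (30 * W.Δ * s)).c₆ = C6p a b (M * s) := by
    rw [famCurve_c₆, ht]
  have hss := famCurve_semistable hΔ hW s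
  have hΔ' : (famCurve W (30 * W.Δ * s)).Δ ≠ 0 := by
    intro h0
    have h1 := (famCurve W (30 * W.Δ * s)).c_relation
    rw [h0, hc4, hc6, mul_zero] at h1
    apply hv₁.2
    rw [← h1]
    exact dvd_zero _
  apply irreducible_of_no_root _ hΔ'
  intro x hx
  rw [hc4, hc6] at hx
  refine core (C4 := C4p a b (M * s)) (C6 := C6p a b (M * s)) hx ?_ hr₁ hr₂ (by omega) (by omega)
    h4₁ h4₂ h2₁ h3₁ h2₂ h3₂ hw₁ e4₁ e6₁ hw₂ e4₂ (w₂ := w₂) ?_ hv₁.1 hv₁.2 hv₂.1 hv₂.2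
  · intro p hp hp5 hd
    have h1 : (p : ℤ) ∣ 1728 * (famCurve W (30 * W.Δ * s)).Δ := by
      rw [(famCurve W (30 * W.Δ * s)).c_relation, hc4, hc6]
      exact dvd_sub (Dvd.dvd.trans hd.1 (dvd_pow_self _ (by norm_num)))
        (Dvd.dvd.trans hd.2 (dvd_pow_self _ (by norm_num)))
    have hpI : Prime (p : ℤ) := Nat.prime_iff_prime_int.mp hp
    have h2 : (p : ℤ) ∣ (famCurve W (30 * W.Δ * s)).Δ := by
      rcases hpI.dvd_or_dvd h1 with h | h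
      · exfalso
        have h' : p ∣ 2 ^ 6 * 3 ^ 3 := by
          have : p ∣ 1728 := by exact_mod_cast h
          simpa using this
        rcases (hp.dvd_mul).mp h' with h | h
        · have := Nat.le_of_dvd (by norm_num) (hp.dvd_of_dvd_pow h); omega
        · have := Nat.le_of_dvd (by norm_num) (hp.dvd_of_dvd_pow h); omega
      · exact h
    exact hss p hp h2 (by rw [hc4]; exact hd.1)
  · rw [Int.cast_neg] at e6₂
    exact neg_inj.mp e6₂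

end Fermat.Agent.Switch
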