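import Fermat.Agent.Switch.HomRefl

/-!
# The family at a cusp, in icosahedral coordinates: the two large identities, checked by reflection
-/

set_option autoImplicit false

namespace Fermat.Agent.Switch.HF

open HE

/-- `c4c0` -/
def c4e0 : HE := atom 0

/-- `c4c1` -/
def c4e1 : HE := mul (num 20) (atom 1)

/-- `c4c2` -/
def c4e2 : HE := mul (num 190) (pow (atom 0) 2)

/-- `c4c3` -/
def c4e3 : HE := mul (mul (num 1140) (atom 0)) (atom 1)

/-- `c4c4` -/
def c4e4 : HE := sub (mul (num 5700) (pow (atom 1) 2)) (mul (num 855) (pow (atom 0) 3))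

/-- `c4c5` -/
def c4e5 : HE := mul (mul (num 15504) (pow (atom 0) 2)) (atom 1)

/-- `c4c6` -/
def c4e6 : HE := add (mul (mul (neg (num 63840)) (atom 0)) (pow (atom 1) 2)) (mul (num 102600) (pow (atom 0) 4))

/-- `c4c7` -/
def c4e7 : HE := add (mul (neg (num 182400)) (pow (atom 1) 3)) (mul (mul (num 259920) (pow (atom 0) 3)) (atom 1))

/-- `c4c8` -/
def c4e8 : HE := sub (mul (mul (num 1126320) (pow (atom 0) 2)) (pow (atom 1) 2)) (mul (num 1000350) (pow (atom 0) 5))

/-- `c4c9` -/
def c4e9 : HE := sub (mul (mul (num 7904000) (atom 0)) (pow (atom 1) 3)) (mul (mul (num 7736040) (pow (atom 0) 4)) (atom 1))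

/-- `c4c10` -/
def c4e10 : HE := sub (sub (mul (num 15808000) (pow (atom 1) 4)) (mul (mul (num 5619744) (pow (atom 0) 3)) (pow (atom 1) 2))) (mul (num 10003500) (pow (atom 0) 6))

/-- `c4c11` -/
def c4e11 : HE := sub (mul (mul (num 54853760) (pow (atom 0) 2)) (pow (atom 1) 3)) (mul (mul (num 54685800) (pow (atom 0) 5)) (atom 1))

/-- `c4c12` -/
def c4e12 : HE := sub (add (mul (mul (num 37939200) (atom 0)) (pow (atom 1) 4)) (mul (mul (num 7202520) (pow (atom 0) 4)) (pow (atom 1) 2))) (mul (num 45015750) (pow (atom 0) 7))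

/-- `c4c13` -/
def c4e13 : HE := sub (sub (mul (num 58368000) (pow (atom 1) 5)) (mul (mul (num 23201280) (pow (atom 0) 3)) (pow (atom 1) 3))) (mul (mul (num 35089200) (pow (atom 0) 6)) (atom 1))

/-- `c4c14` -/
def c4e14 : HE := add (sub (mul (mul (num 287462400) (pow (atom 0) 2)) (pow (atom 1) 4)) (mul (mul (num 495188640) (pow (atom 0) 5)) (pow (atom 1) 2))) (mul (num 207765000) (pow (atom 0) 8))

/-- `c4c15` -/
def c4e15 : HE := add (sub (mul (mul (num 466944000) (atom 0)) (pow (atom 1) 5)) (mul (mul (num 882458496) (pow (atom 0) 4)) (pow (atom 1) 3))) (mul (mul (num 415530000) (pow (atom 0) 7)) (atom 1))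

/-- `c4c16` -/
def c4e16 : HE := sub (add (sub (mul (num 583680000) (pow (atom 1) 6)) (mul (mul (num 1220474880) (pow (atom 0) 3)) (pow (atom 1) 4))) (mul (mul (num 714711600) (pow (atom 0) 6)) (pow (atom 1) 2))) (mul (num 77911875) (pow (atom 0) 9))

/-- `c4c17` -/
def c4e17 : HE := add (sub (mul (mul (num 361881600) (pow (atom 0) 2)) (pow (atom 1) 5)) (mul (mul (num 715080960) (pow (atom 0) 5)) (pow (atom 1) 3))) (mul (mul (num 353200500) (pow (atom 0) 8)) (atom 1))

/-- `c4c18` -/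
def c4e18 : HE := add (sub (add (mul (mul (neg (num 622592000)) (atom 0)) (pow (atom 1) 6)) (mul (mul (num 2026391040) (pow (atom 0) 4)) (pow (atom 1) 4))) (mul (mul (num 2182917600) (pow (atom 0) 7)) (pow (atom 1) 2))) (mul (num 779118750) (pow (atom 0) 10))

/-- `c4c19` -/
def c4e19 : HE := add (sub (add (mul (neg (num 655360000)) (pow (atom 1) 7)) (mul (mul (num 2005401600) (pow (atom 0) 3)) (pow (atom 1) 5))) (mul (mul (num 2044414080) (pow (atom 0) 6)) (pow (atom 1) 3))) (mul (mul (num 694372500) (pow (atom 0) 9)) (atom 1))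

/-- `c4c20` -/
def c4e20 : HE := add (sub (add (mul (mul (neg (num 180224000)) (pow (atom 0) 2)) (pow (atom 1) 6)) (mul (mul (num 544997376) (pow (atom 0) 5)) (pow (atom 1) 4))) (mul (mul (num 549301500) (pow (atom 0) 8)) (pow (atom 1) 2))) (mul (num 184528125) (pow (atom 0) 11))

/-- left side -/
def c4lhs : HE := add (add (add (add (add (add (add (add (add (add (add (add (add (add (add (add (add (add (add (add (mul c4e0 (pow (atom 2) 20))
  (mul c4e1 (pow (atom 2) 19)))
  (mul c4e2 (pow (atom 2) 18)))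
  (mul c4e3 (pow (atom 2) 17)))
  (mul c4e4 (pow (atom 2) 16)))
  (mul c4e5 (pow (atom 2) 15)))
  (mul c4e6 (pow (atom 2) 14)))
  (mul c4e7 (pow (atom 2) 13)))
  (mul c4e8 (pow (atom 2) 12)))
  (mul c4e9 (pow (atom 2) 11)))
  (mul c4e10 (pow (atom 2) 10)))
  (mul c4e11 (pow (atom 2) 9)))
  (mul c4e12 (pow (atom 2) 8)))
  (mul c4e13 (pow (atom 2) 7)))
  (mul c4e14 (pow (atom 2) 6)))
  (mul c4e15 (pow (atom 2) 5)))
  (mul c4e16 (pow (atom 2) 4)))
  (mul c4e17 (pow (atom 2) 3)))
  (mul c4e18 (pow (atom 2) 2)))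
  (mul c4e19 (atom 2)))
  c4e20

/-- `c6c0` -/
def c6e0 : HE := atom 1

/-- `c6c1` -/
def c6e1 : HE := mul (num 30) (pow (atom 0) 2)

/-- `c6c2` -/
def c6e2 : HE := mul (mul (num 435) (atom 0)) (atom 1)

/-- `c6c3` -/
def c6e3 : HE := add (mul (num 2900) (pow (atom 1) 2)) (mul (num 1160) (pow (atom 0) 3))

/-- `c6c4` -/
def c6e4 : HE := mul (mul (num 27405) (pow (atom 0) 2)) (atom 1)

/-- `c6c5` -/
def c6e5 : HE := add (mul (mul (num 46980) (atom 0)) (pow (atom 1) 2)) (mul (num 95526) (pow (atom 0) 4))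

/-- `c6c6` -/
def c6e6 : HE := add (mul (num 156600) (pow (atom 1) 3)) (mul (mul (num 437175) (pow (atom 0) 3)) (atom 1))

/-- `c6c7` -/
def c6e7 : HE := sub (mul (mul (num 3915000) (pow (atom 0) 2)) (pow (atom 1) 2)) (mul (num 1879200) (pow (atom 0) 5))

/-- `c6c8` -/
def c6e8 : HE := sub (mul (mul (num 14407200) (atom 0)) (pow (atom 1) 3)) (mul (mul (num 8554275) (pow (atom 0) 4)) (atom 1))

/-- `c6c9` -/
def c6e9 : HE := add (sub (mul (num 32016000) (pow (atom 1) 4)) (mul (mul (num 42021000) (pow (atom 0) 3)) (pow (atom 1) 2))) (mul (num 24312150) (pow (atom 0) 6))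

/-- `c6c10` -/
def c6e10 : HE := add (mul (mul (neg (num 216588240)) (pow (atom 0) 2)) (pow (atom 1) 3)) (mul (mul (num 246633255) (pow (atom 0) 5)) (atom 1))

/-- `c6c11` -/
def c6e11 : HE := add (add (mul (mul (neg (num 1459929600)) (atom 0)) (pow (atom 1) 4)) (mul (mul (num 1352475900) (pow (atom 0) 4)) (pow (atom 1) 2))) (mul (num 162081000) (pow (atom 0) 7))

/-- `c6c12` -/
def c6e12 : HE := add (sub (mul (neg (num 2433216000)) (pow (atom 1) 5)) (mul (mul (num 1612005600) (pow (atom 0) 3)) (pow (atom 1) 3))) (mul (mul (num 4131714825) (pow (atom 0) 6)) (atom 1))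

/-- `c6c13` -/
def c6e13 : HE := add (add (mul (mul (neg (num 12044419200)) (pow (atom 0) 2)) (pow (atom 1) 4)) (mul (mul (num 5235216300) (pow (atom 0) 5)) (pow (atom 1) 2))) (mul (num 6928962750) (pow (atom 0) 8))

/-- `c6c14` -/
def c6e14 : HE := add (mul (mul (neg (num 43045111800)) (pow (atom 0) 4)) (pow (atom 1) 3)) (mul (mul (num 43190534475) (pow (atom 0) 7)) (atom 1))

/-- `c6c15` -/
def c6e15 : HE := add (mul (mul (neg (num 79420170240)) (pow (atom 0) 3)) (pow (atom 1) 4)) (mul (mul (num 79575287760) (pow (atom 0) 6)) (pow (atom 1) 2))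

/-- `c6c16` -/
def c6e16 : HE := sub (add (mul (mul (neg (num 297825638400)) (pow (atom 0) 2)) (pow (atom 1) 5)) (mul (mul (num 474659611200) (pow (atom 0) 5)) (pow (atom 1) 3))) (mul (mul (num 176688550125) (pow (atom 0) 8)) (atom 1))

/-- `c6c17` -/
def c6e17 : HE := sub (add (add (mul (mul (neg (num 700766208000)) (atom 0)) (pow (atom 1) 6)) (mul (mul (num 935084908800) (pow (atom 0) 4)) (pow (atom 1) 4))) (mul (mul (num 77604382800) (pow (atom 0) 7)) (pow (atom 1) 2))) (mul (num 311803323750) (pow (atom 0) 10))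

/-- `c6c18` -/
def c6e18 : HE := sub (add (sub (mul (neg (num 778629120000)) (pow (atom 1) 7)) (mul (mul (num 303665356800) (pow (atom 0) 3)) (pow (atom 1) 5))) (mul (mul (num 2776512362400) (pow (atom 0) 6)) (pow (atom 1) 3))) (mul (mul (num 1694131392375) (pow (atom 0) 9)) (atom 1))

/-- `c6c19` -/
def c6e19 : HE := sub (sub (add (mul (mul (neg (num 4290656256000)) (pow (atom 0) 2)) (pow (atom 1) 6)) (mul (mul (num 8100765158400) (pow (atom 0) 5)) (pow (atom 1) 4))) (mul (mul (num 3481840250100) (pow (atom 0) 8)) (pow (atom 1) 2))) (mul (num 328214025000) (pow (atom 0) 11))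

/-- `c6c20` -/
def c6e20 : HE := sub (add (add (mul (mul (neg (num 3442360320000)) (atom 0)) (pow (atom 1) 7)) (mul (mul (num 3892110842880) (pow (atom 0) 4)) (pow (atom 1) 5))) (mul (mul (num 2424887357760) (pow (atom 0) 7)) (pow (atom 1) 3))) (mul (mul (num 2874607835625) (pow (atom 0) 10)) (atom 1))

/-- `c6c21` -/
def c6e21 : HE := sub (add (sub (add (mul (neg (num 3278438400000)) (pow (atom 1) 8)) (mul (mul (num 5125838438400) (pow (atom 0) 3)) (pow (atom 1) 6))) (mul (mul (num 2709129888000) (pow (atom 0) 6)) (pow (atom 1) 4))) (mul (mul (num 3077188825500) (pow (atom 0) 9)) (pow (atom 1) 2))) (mul (num 2215444668750) (pow (atom 0) 12))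

/-- `c6c22` -/
def c6e22 : HE := sub (sub (add (mul (mul (neg (num 4573421568000)) (pow (atom 0) 2)) (pow (atom 1) 7)) (mul (mul (num 7701051801600) (pow (atom 0) 5)) (pow (atom 1) 5))) (mul (mul (num 1724509423800) (pow (atom 0) 8)) (pow (atom 1) 3))) (mul (mul (num 1403114956875) (pow (atom 0) 11)) (atom 1))

/-- `c6c23` -/
def c6e23 : HE := add (sub (add (sub (mul (mul (num 6157762560000) (atom 0)) (pow (atom 1) 8)) (mul (mul (num 30337884979200) (pow (atom 0) 4)) (pow (atom 1) 6))) (mul (mul (num 49888700928000) (pow (atom 0) 7)) (pow (atom 1) 4))) (mul (mul (num 33414470973000) (pow (atom 0) 10)) (pow (atom 1) 2))) (mul (num 7705894500000) (pow (atom 0) 13))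

/-- `c6c24` -/
def c6e24 : HE := add (sub (add (sub (mul (num 5131468800000) (pow (atom 1) 9)) (mul (mul (num 22779445248000) (pow (atom 0) 3)) (pow (atom 1) 7))) (mul (mul (num 35246094796800) (pow (atom 0) 6)) (pow (atom 1) 5))) (mul (mul (num 22687218914400) (pow (atom 0) 9)) (pow (atom 1) 3))) (mul (mul (num 5089101159375) (pow (atom 0) 12)) (atom 1))

/-- `c6c25` -/
def c6e25 : HE := sub (add (sub (add (mul (mul (neg (num 18216714240000)) (pow (atom 0) 2)) (pow (atom 1) 8)) (mul (mul (num 71274600677376) (pow (atom 0) 5)) (pow (atom 1) 6))) (mul (mul (num 105528606261120) (pow (atom 0) 8)) (pow (atom 1) 4))) (mul (mul (num 70097953635000) (pow (atom 0) 11)) (pow (atom 1) 2))) (mul (num 17627233668750) (pow (atom 0) 14))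

/-- `c6c26` -/
def c6e26 : HE := sub (add (sub (add (mul (mul (neg (num 41051750400000)) (atom 0)) (pow (atom 1) 9)) (mul (mul (num 163803539865600) (pow (atom 0) 4)) (pow (atom 1) 7))) (mul (mul (num 245438120632320) (pow (atom 0) 7)) (pow (atom 1) 5))) (mul (mul (num 163672057566000) (pow (atom 0) 10)) (pow (atom 1) 3))) (mul (mul (num 40985726371875) (pow (atom 0) 13)) (atom 1))

/-- `c6c27` -/
def c6e27 : HE := sub (add (add (sub (add (mul (neg (num 30408704000000)) (pow (atom 1) 10)) (mul (mul (num 111934439424000) (pow (atom 0) 3)) (pow (atom 1) 8))) (mul (mul (num 143803576074240) (pow (atom 0) 6)) (pow (atom 1) 6))) (mul (mul (num 63806176396800) (pow (atom 0) 9)) (pow (atom 1) 4))) (mul (mul (num 8104032382500) (pow (atom 0) 12)) (pow (atom 1) 2))) (mul (num 9632368125000) (pow (atom 0) 15))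

/-- `c6c28` -/
def c6e28 : HE := sub (add (sub (add (mul (mul (neg (num 21438136320000)) (pow (atom 0) 2)) (pow (atom 1) 9)) (mul (mul (num 85731449241600) (pow (atom 0) 5)) (pow (atom 1) 7))) (mul (mul (num 128580522647040) (pow (atom 0) 8)) (pow (atom 1) 5))) (mul (mul (num 85719228804000) (pow (atom 0) 11)) (pow (atom 1) 3))) (mul (mul (num 21432019078125) (pow (atom 0) 14)) (atom 1))

/-- `c6c29` -/
def c6e29 : HE := sub (add (sub (add (sub (mul (mul (num 5033164800000) (atom 0)) (pow (atom 1) 10)) (mul (mul (num 31344427008000) (pow (atom 0) 4)) (pow (atom 1) 8))) (mul (mul (num 75042714746880) (pow (atom 0) 7)) (pow (atom 1) 6))) (mul (mul (num 87394892457600) (pow (atom 0) 10)) (pow (atom 1) 4))) (mul (mul (num 49873523512500) (pow (atom 0) 13)) (pow (atom 1) 2))) (mul (num 11210083593750) (pow (atom 0) 16))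

/-- `c6c30` -/
def c6e30 : HE := sub (add (sub (add (sub (mul (num 3355443200000) (pow (atom 1) 11)) (mul (mul (num 17532190720000) (pow (atom 0) 3)) (pow (atom 1) 9))) (mul (mul (num 36574189977600) (pow (atom 0) 6)) (pow (atom 1) 7))) (mul (mul (num 38083944628224) (pow (atom 0) 9)) (pow (atom 1) 5))) (mul (mul (num 19796866155000) (pow (atom 0) 12)) (pow (atom 1) 3))) (mul (mul (num 4110363984375) (pow (atom 0) 15)) (atom 1))

/-- left side -/
def c6lhs : HE := add (add (add (add (add (add (add (add (add (add (add (add (add (add (add (add (add (add (add (add (add (add (add (add (add (add (add (add (add (add (mul c6e0 (pow (atom 2) 30))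
  (mul c6e1 (pow (atom 2) 29)))
  (mul c6e2 (pow (atom 2) 28)))
  (mul c6e3 (pow (atom 2) 27)))
  (mul c6e4 (pow (atom 2) 26)))
  (mul c6e5 (pow (atom 2) 25)))
  (mul c6e6 (pow (atom 2) 24)))
  (mul c6e7 (pow (atom 2) 23)))
  (mul c6e8 (pow (atom 2) 22)))
  (mul c6e9 (pow (atom 2) 21)))
  (mul c6e10 (pow (atom 2) 20)))
  (mul c6e11 (pow (atom 2) 19)))
  (mul c6e12 (pow (atom 2) 18)))
  (mul c6e13 (pow (atom 2) 17)))
  (mul c6e14 (pow (atom 2) 16)))
  (mul c6e15 (pow (atom 2) 15)))
  (mul c6e16 (pow (atom 2) 14)))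
  (mul c6e17 (pow (atom 2) 13)))
  (mul c6e18 (pow (atom 2) 12)))
  (mul c6e19 (pow (atom 2) 11)))
  (mul c6e20 (pow (atom 2) 10)))
  (mul c6e21 (pow (atom 2) 9)))
  (mul c6e22 (pow (atom 2) 8)))
  (mul c6e23 (pow (atom 2) 7)))
  (mul c6e24 (pow (atom 2) 6)))
  (mul c6e25 (pow (atom 2) 5)))
  (mul c6e26 (pow (atom 2) 4)))
  (mul c6e27 (pow (atom 2) 3)))
  (mul c6e28 (pow (atom 2) 2)))
  (mul c6e29 (atom 2)))
  c6e30

/-- the forms `c4f`, `c6f`, `s`, `v`, and the form of degree two of the other cusps -/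
def cuspEnv : ℕ → List ℤ
  | 0 => [1, -228, 494, 228, 1]
  | 1 => [-1, -522, 10005, 0, 10005, 522, -1]
  | 2 => [-11, -66, 1]
  | 3 => [1, 0]
  | 4 => [-1, -11, 1]
  | _ => []

/-- right side -/
def c4rhs : HE := mul (pow (atom 3) 4) (pow (mul (num 12) (atom 4)) 20)

/-- right side -/
def c6rhs : HE := neg (mul (pow (atom 3) 6) (pow (mul (num 12) (atom 4)) 30))

theorem c4check : check cuspEnv c4lhs c4rhs = true := by decide +kernel

theorem c6check : check cuspEnv c6lhs c6rhs = true := by decide +kernel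

end Fermat.Agent.Switch.HF
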