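import Mathlib.Tactic

/-!
# The icosahedral invariants on the `(u, v)`-plane

`c4f`, `c6f` are the `c₄`, `c₆` invariants of the universal elliptic curve with an embedding of
`μ₅`; the discriminant is `u v (u² - 11 u v - v²)⁵`.
-/

set_option autoImplicit false

namespace Fermat.Agent.Switch

variable {R : Type*} [CommRing R]

/-- the form `c₄(u, v)` -/
def c4f (u v : R) : R := u^4 + 228*u^3*v + 494*u^2*v^2 - 228*u*v^3 + v^4

/-- the form `c₆(u, v)` -/
def c6f (u v : R) : R :=
  -u^6 + 522*u^5*v + 10005*u^4*v^2 + 10005*u^2*v^4 - 522*u*v^5 - v^6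

lemma map_c4f {S : Type*} [CommRing S] (f : R →+* S) (u v : R) :
    f (c4f u v) = c4f (f u) (f v) := by
  simp only [c4f, map_add, map_sub, map_mul, map_pow, map_ofNat]

lemma map_c6f {S : Type*} [CommRing S] (f : R →+* S) (u v : R) :
    f (c6f u v) = c6f (f u) (f v) := by
  simp only [c6f, map_add, map_sub, map_mul, map_pow, map_neg, map_ofNat]

lemma c4f_smul (t u v : R) : c4f (t * u) (t * v) = t ^ 4 * c4f u v := by
  simp only [c4f]; ring

lemma c6f_smul (t u v : R) : c6f (t * u) (t * v) = t ^ 6 * c6f u v := by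
  simp only [c6f]; ring

lemma disc_f (u v : R) : c4f u v ^ 3 - c6f u v ^ 2 =
    1728 * (u * v * (u ^ 2 - 11 * u * v - v ^ 2) ^ 5) := by
  simp only [c4f, c6f]; ring

end Fermat.Agent.Switch
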