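import Fermat.Agent.S52.Family
import Fermat.Agent.Switch.Forms
import Fermat.Agent.Switch.CuspData

/-!
# The family at a cusp, in icosahedral coordinates
-/

set_option autoImplicit false

namespace Fermat.Agent.Switch

open Fermat.Agent.S52x

section ring

variable {R : Type*} [CommRing R]

open HF in
lemma cuspEnv_zero (u v : R) : hv u v (cuspEnv 0) = c4f u v := by
  simp [cuspEnv, hv, c4f]; ring

open HF in
lemma cuspEnv_one (u v : R) : hv u v (cuspEnv 1) = c6f u v := by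
  simp [cuspEnv, hv, c6f]; ring

open HF in
lemma cuspEnv_two (u v : R) : hv u v (cuspEnv 2) = u ^ 2 - 66 * u * v - 11 * v ^ 2 := by
  simp [cuspEnv, hv]; ring

open HF in
lemma cuspEnv_three (u v : R) : hv u v (cuspEnv 3) = v := by
  simp [cuspEnv, hv]

open HF in
lemma cuspEnv_four (u v : R) : hv u v (cuspEnv 4) = u ^ 2 - 11 * u * v - v ^ 2 := by
  simp [cuspEnv, hv]; ring

open HF in
theorem C4_cusp_aux (u v s : R) (hs : s = u ^ 2 - 66 * u * v - 11 * v ^ 2) :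
    c4c0 (c4f u v) (c6f u v) * s ^ 20 + c4c1 (c4f u v) (c6f u v) * s ^ 19 +
    c4c2 (c4f u v) (c6f u v) * s ^ 18 + c4c3 (c4f u v) (c6f u v) * s ^ 17 +
    c4c4 (c4f u v) (c6f u v) * s ^ 16 + c4c5 (c4f u v) (c6f u v) * s ^ 15 +
    c4c6 (c4f u v) (c6f u v) * s ^ 14 + c4c7 (c4f u v) (c6f u v) * s ^ 13 +
    c4c8 (c4f u v) (c6f u v) * s ^ 12 + c4c9 (c4f u v) (c6f u v) * s ^ 11 +
    c4c10 (c4f u v) (c6f u v) * s ^ 10 + c4c11 (c4f u v) (c6f u v) * s ^ 9 +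
    c4c12 (c4f u v) (c6f u v) * s ^ 8 + c4c13 (c4f u v) (c6f u v) * s ^ 7 +
    c4c14 (c4f u v) (c6f u v) * s ^ 6 + c4c15 (c4f u v) (c6f u v) * s ^ 5 +
    c4c16 (c4f u v) (c6f u v) * s ^ 4 + c4c17 (c4f u v) (c6f u v) * s ^ 3 +
    c4c18 (c4f u v) (c6f u v) * s ^ 2 + c4c19 (c4f u v) (c6f u v) * s +
    c4c20 (c4f u v) (c6f u v) = v ^ 4 * (12 * (u ^ 2 - 11 * u * v - v ^ 2)) ^ 20 := by
  subst hs
  have h := HE.eval_eq_of_check u v cuspEnv c4lhs c4rhs c4check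
  simp only [c4lhs, c4rhs, HE.eval, c4e0, c4e1, c4e2, c4e3, c4e4, c4e5, c4e6, c4e7, c4e8, c4e9,
    c4e10, c4e11, c4e12, c4e13, c4e14, c4e15, c4e16, c4e17, c4e18, c4e19, c4e20, cuspEnv_zero,
    cuspEnv_one, cuspEnv_two, cuspEnv_three, cuspEnv_four, Int.cast_ofNat] at h
  simp only [c4c0, c4c1, c4c2, c4c3, c4c4, c4c5, c4c6, c4c7, c4c8, c4c9, c4c10, c4c11, c4c12,
    c4c13, c4c14, c4c15, c4c16, c4c17, c4c18, c4c19, c4c20]
  exact h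

open HF in
theorem C6_cusp_aux (u v s : R) (hs : s = u ^ 2 - 66 * u * v - 11 * v ^ 2) :
    c6c0 (c4f u v) (c6f u v) * s ^ 30 + c6c1 (c4f u v) (c6f u v) * s ^ 29 +
    c6c2 (c4f u v) (c6f u v) * s ^ 28 + c6c3 (c4f u v) (c6f u v) * s ^ 27 +
    c6c4 (c4f u v) (c6f u v) * s ^ 26 + c6c5 (c4f u v) (c6f u v) * s ^ 25 +
    c6c6 (c4f u v) (c6f u v) * s ^ 24 + c6c7 (c4f u v) (c6f u v) * s ^ 23 +
    c6c8 (c4f u v) (c6f u v) * s ^ 22 + c6c9 (c4f u v) (c6f u v) * s ^ 21 +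
    c6c10 (c4f u v) (c6f u v) * s ^ 20 + c6c11 (c4f u v) (c6f u v) * s ^ 19 +
    c6c12 (c4f u v) (c6f u v) * s ^ 18 + c6c13 (c4f u v) (c6f u v) * s ^ 17 +
    c6c14 (c4f u v) (c6f u v) * s ^ 16 + c6c15 (c4f u v) (c6f u v) * s ^ 15 +
    c6c16 (c4f u v) (c6f u v) * s ^ 14 + c6c17 (c4f u v) (c6f u v) * s ^ 13 +
    c6c18 (c4f u v) (c6f u v) * s ^ 12 + c6c19 (c4f u v) (c6f u v) * s ^ 11 +
    c6c20 (c4f u v) (c6f u v) * s ^ 10 + c6c21 (c4f u v) (c6f u v) * s ^ 9 +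
    c6c22 (c4f u v) (c6f u v) * s ^ 8 + c6c23 (c4f u v) (c6f u v) * s ^ 7 +
    c6c24 (c4f u v) (c6f u v) * s ^ 6 + c6c25 (c4f u v) (c6f u v) * s ^ 5 +
    c6c26 (c4f u v) (c6f u v) * s ^ 4 + c6c27 (c4f u v) (c6f u v) * s ^ 3 +
    c6c28 (c4f u v) (c6f u v) * s ^ 2 + c6c29 (c4f u v) (c6f u v) * s +
    c6c30 (c4f u v) (c6f u v) = -(v ^ 6 * (12 * (u ^ 2 - 11 * u * v - v ^ 2)) ^ 30) := by
  subst hs
  have h := HE.eval_eq_of_check u v cuspEnv c6lhs c6rhs c6check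
  simp only [c6lhs, c6rhs, HE.eval, c6e0, c6e1, c6e2, c6e3, c6e4, c6e5, c6e6, c6e7, c6e8, c6e9,
    c6e10, c6e11, c6e12, c6e13, c6e14, c6e15, c6e16, c6e17, c6e18, c6e19, c6e20, c6e21, c6e22,
    c6e23, c6e24, c6e25, c6e26, c6e27, c6e28, c6e29, c6e30, cuspEnv_zero, cuspEnv_one,
    cuspEnv_two, cuspEnv_three, cuspEnv_four, Int.cast_ofNat] at h
  simp only [c6c0, c6c1, c6c2, c6c3, c6c4, c6c5, c6c6, c6c7, c6c8, c6c9, c6c10, c6c11, c6c12,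
    c6c13, c6c14, c6c15, c6c16, c6c17, c6c18, c6c19, c6c20, c6c21, c6c22, c6c23, c6c24, c6c25,
    c6c26, c6c27, c6c28, c6c29, c6c30]
  exact h

set_option maxHeartbeats 0 in
/-- The cusp form of degree 12 in icosahedral coordinates. -/
theorem Dp_f (u v t : R) : Dp (c4f u v) (c6f u v) t * (u ^ 2 - 11 * u * v - v ^ 2) =
    (1 - t * (u ^ 2 - 66 * u * v - 11 * v ^ 2)) * ((1 + t * (11 * u ^ 2 - 66 * u * v - v ^ 2)) *
      (u ^ 2 * (1 - t * (u ^ 2 - 66 * u * v - 11 * v ^ 2)) ^ 10 -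
        11 * u * v * (1 - t * (u ^ 2 - 66 * u * v - 11 * v ^ 2)) ^ 5 *
          (1 + t * (11 * u ^ 2 - 66 * u * v - v ^ 2)) ^ 5 -
        v ^ 2 * (1 + t * (11 * u ^ 2 - 66 * u * v - v ^ 2)) ^ 10)) := by
  simp only [Dp, dc2, dc3, dc4, dc5, dc6, dc7, dc8, dc9, dc10, dc11, dc12, c4f, c6f]
  ring

theorem dc12_f (u v : R) : dc12 (c4f u v) (c6f u v) * (u ^ 2 - 11 * u * v - v ^ 2) =
    (u ^ 2 - 66 * u * v - 11 * v ^ 2) * (11 * u ^ 2 - 66 * u * v - v ^ 2) *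
      (-(u ^ 2 * (u ^ 2 - 66 * u * v - 11 * v ^ 2) ^ 10) -
        11 * u * v * (u ^ 2 - 66 * u * v - 11 * v ^ 2) ^ 5 *
          (11 * u ^ 2 - 66 * u * v - v ^ 2) ^ 5 +
        v ^ 2 * (11 * u ^ 2 - 66 * u * v - v ^ 2) ^ 10) := by
  simp only [dc12, c4f, c6f]
  ring

/-- parity of the family -/
theorem C4p_neg (a b t : R) : C4p a (-b) (-t) = C4p a b t := by
  simp only [C4p, c4c0, c4c1, c4c2, c4c3, c4c4, c4c5, c4c6, c4c7, c4c8, c4c9, c4c10,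
    c4c11, c4c12, c4c13, c4c14, c4c15, c4c16, c4c17, c4c18, c4c19, c4c20]
  ring

theorem C6p_neg (a b t : R) : C6p a (-b) (-t) = -C6p a b t := by
  simp only [C6p, c6c0, c6c1, c6c2, c6c3, c6c4, c6c5, c6c6, c6c7, c6c8, c6c9, c6c10,
    c6c11, c6c12, c6c13, c6c14, c6c15, c6c16, c6c17, c6c18, c6c19, c6c20, c6c21, c6c22, c6c23,
    c6c24, c6c25, c6c26, c6c27, c6c28, c6c29, c6c30]
  ring

theorem Dp_neg (a b t : R) : Dp a (-b) (-t) = Dp a b t := by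
  simp only [Dp, dc2, dc3, dc4, dc5, dc6, dc7, dc8, dc9, dc10, dc11, dc12]
  ring

end ring

end Fermat.Agent.Switch
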