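import Mathlib.Tactic.Ring
import Mathlib.Tactic.LinearCombination

/-!
# Reflection for identities between binary forms with integer coefficients

A homogeneous polynomial of degree `d` in `u, v` is stored as the list of its `d + 1` integer
coefficients; identities between such polynomials are checked by evaluation in the kernel.
-/

set_option autoImplicit false

namespace Fermat.Agent.Switch.HF

variable {R : Type*} [CommRing R]

/-- value of the binary form with coefficients `L` (increasing powers of `u`) -/
def hv (u v : R) : List ℤ → R
  | [] => 0
  | c :: L => (c : R) * v ^ L.length + u * hv u v L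

/-- sum of two forms of the same degree -/
def addL : List ℤ → List ℤ → List ℤ
  | a :: L, b :: M => Int.add a b :: addL L M
  | _, _ => []

/-- integer multiple -/
def smulL (c : ℤ) : List ℤ → List ℤ
  | [] => []
  | a :: L => Int.mul c a :: smulL c L

/-- `k` zeros -/
def zerosL : ℕ → List ℤ
  | 0 => []
  | k + 1 => 0 :: zerosL k

/-- append `k` zeros (multiplication by `v ^ k`) -/
def padL (k : ℕ) : List ℤ → List ℤ
  | [] => zerosL k
  | a :: L => a :: padL k L

/-- product of forms -/
def mulL : List ℤ → List ℤ → List ℤ
  | [], _ => []
  | [c], M => smulL c M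
  | c :: d :: L, M => addL (padL (L.length + 1) (smulL c M)) (0 :: mulL (d :: L) M)

/-- powers -/
def powL (L : List ℤ) : ℕ → List ℤ
  | 0 => [1]
  | n + 1 => mulL L (powL L n)

lemma length_addL : ∀ {L M : List ℤ}, L.length = M.length → (addL L M).length = L.length
  | [], [], _ => rfl
  | [], _ :: _, h => by simp at h
  | _ :: _, [], h => by simp at h
  | a :: L, b :: M, h => by
    simp only [addL, List.length_cons]
    rw [length_addL (by simpa using h)]

lemma length_smulL (c : ℤ) : ∀ L : List ℤ, (smulL c L).length = L.length
  | [] => rfl
  | a :: L => by simp only [smulL, List.length_cons, length_smulL c L]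

lemma length_zerosL : ∀ k, (zerosL k).length = k
  | 0 => rfl
  | k + 1 => by simp only [zerosL, List.length_cons, length_zerosL k]

lemma length_padL (k : ℕ) : ∀ L : List ℤ, (padL k L).length = L.length + k
  | [] => by simp [padL, length_zerosL]
  | a :: L => by simp only [padL, List.length_cons, length_padL k L]; omega

lemma length_mulL : ∀ {L M : List ℤ}, L ≠ [] → M ≠ [] →
    (mulL L M).length + 1 = L.length + M.length
  | [], _, h, _ => absurd rfl h
  | [c], M, _, _ => by simp only [mulL, length_smulL, List.length_cons, List.length_nil]; omega
  | c :: d :: L, M, _, hM => by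
    have ih := length_mulL (L := d :: L) (M := M) (by simp) hM
    have h1 : (padL (L.length + 1) (smulL c M)).length = (0 :: mulL (d :: L) M).length := by
      rw [length_padL, length_smulL, List.length_cons]
      simp only [List.length_cons] at ih
      omega
    simp only [mulL]
    rw [length_addL h1, length_padL, length_smulL]
    simp only [List.length_cons]
    omega

lemma ne_nil_mulL {L M : List ℤ} (hL : L ≠ []) (hM : M ≠ []) : mulL L M ≠ [] := by
  intro h
  have := length_mulL hL hM
  rw [h] at this
  have h1 : 0 < L.length := List.length_pos_iff.mpr hL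
  have h2 : 0 < M.length := List.length_pos_iff.mpr hM
  simp only [List.length_nil] at this
  omega

lemma ne_nil_powL {L : List ℤ} (hL : L ≠ []) : ∀ n, powL L n ≠ []
  | 0 => by simp [powL]
  | n + 1 => ne_nil_mulL hL (ne_nil_powL hL n)

variable (u v : R)

lemma hv_addL : ∀ {L M : List ℤ}, L.length = M.length → hv u v (addL L M) = hv u v L + hv u v M
  | [], [], _ => by simp [addL, hv]
  | [], _ :: _, h => by simp at h
  | _ :: _, [], h => by simp at h
  | a :: L, b :: M, h => by
    have h' : L.length = M.length := by simpa using h
    simp only [addL, hv, hv_addL h', length_addL h', ← h', Int.add_def, Int.cast_add]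
    ring

lemma hv_smulL (c : ℤ) : ∀ L : List ℤ, hv u v (smulL c L) = (c : R) * hv u v L
  | [] => by simp [smulL, hv]
  | a :: L => by
    simp only [smulL, hv, hv_smulL c L, length_smulL, Int.mul_def, Int.cast_mul]
    ring

lemma hv_zerosL : ∀ k, hv u v (zerosL k) = 0
  | 0 => rfl
  | k + 1 => by simp only [zerosL, hv, hv_zerosL k, Int.cast_zero]; ring

lemma hv_padL (k : ℕ) : ∀ L : List ℤ, hv u v (padL k L) = v ^ k * hv u v L
  | [] => by simp [padL, hv, hv_zerosL]
  | a :: L => by
    simp only [padL, hv, hv_padL k L, length_padL, pow_add]
    ring

lemma hv_mulL : ∀ {L M : List ℤ}, M ≠ [] → hv u v (mulL L M) = hv u v L * hv u v M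
  | [], _, _ => by simp [mulL, hv]
  | [c], M, _ => by simp [mulL, hv, hv_smulL]
  | c :: d :: L, M, hM => by
    have ih := hv_mulL (L := d :: L) (M := M) hM
    have hl := length_mulL (L := d :: L) (M := M) (by simp) hM
    have h1 : (padL (L.length + 1) (smulL c M)).length = (0 :: mulL (d :: L) M).length := by
      rw [length_padL, length_smulL, List.length_cons]
      simp only [List.length_cons] at hl
      omega
    simp only [mulL]
    rw [hv_addL u v h1, hv_padL, hv_smulL, hv.eq_2 u v 0, ih, hv.eq_2 u v c (d :: L)]
    simp only [Int.cast_zero, List.length_cons]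
    ring

lemma hv_powL {L : List ℤ} (hL : L ≠ []) : ∀ n, hv u v (powL L n) = hv u v L ^ n
  | 0 => by simp [powL, hv]
  | n + 1 => by
    simp only [powL]
    rw [hv_mulL u v (ne_nil_powL hL n), hv_powL hL n, pow_succ']

/-- expressions in finitely many forms -/
inductive HE where
  | atom (i : ℕ)
  | num (c : ℤ)
  | add (a b : HE)
  | sub (a b : HE)
  | neg (a : HE)
  | mul (a b : HE)
  | pow (a : HE) (n : ℕ)

namespace HE

/-- value of an expression -/
def eval (ρ : ℕ → R) : HE → R
  | atom i => ρ i
  | num c => (c : R)
  | add a b => a.eval ρ + b.eval ρ
  | sub a b => a.eval ρ - b.eval ρ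
  | neg a => - a.eval ρ
  | mul a b => a.eval ρ * b.eval ρ
  | pow a n => a.eval ρ ^ n

/-- the list of coefficients; `none` if the expression is not homogeneous -/
def norm (E : ℕ → List ℤ) : HE → Option (List ℤ)
  | atom i => match E i with
    | [] => none
    | c :: L => some (c :: L)
  | num c => some [c]
  | add a b => match a.norm E, b.norm E with
    | some L, some M => if L.length == M.length then some (addL L M) else none
    | _, _ => none
  | sub a b => match a.norm E, b.norm E with
    | some L, some M => if L.length == M.length then some (addL L (smulL (-1) M)) else none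
    | _, _ => none
  | neg a => match a.norm E with
    | some L => some (smulL (-1) L)
    | none => none
  | mul a b => match a.norm E, b.norm E with
    | some L, some M => some (mulL L M)
    | _, _ => none
  | pow a n => match a.norm E with
    | some L => some (powL L n)
    | none => none

lemma norm_spec (E : ℕ → List ℤ) : ∀ (e : HE) (L : List ℤ), e.norm E = some L →
    L ≠ [] ∧ e.eval (fun i => hv u v (E i)) = hv u v L
  | atom i, L, h => by
    simp only [norm] at h
    split at h
    · exact absurd h (by simp)
    · rename_i c M hE
      obtain rfl : c :: M = L := by simpa using h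
      exact ⟨by simp, by simp only [eval, hE]⟩
  | num c, L, h => by
    simp only [norm, Option.some.injEq] at h
    subst h
    exact ⟨by simp, by simp [eval, hv]⟩
  | add a b, L, h => by
    simp only [norm] at h
    split at h
    · rename_i L₁ M₁ ha hb
      obtain ⟨h1, h2⟩ := norm_spec E a L₁ ha
      obtain ⟨h3, h4⟩ := norm_spec E b M₁ hb
      split at h
      · rename_i hl
        have hl' : L₁.length = M₁.length := by simpa using hl
        obtain rfl : addL L₁ M₁ = L := by simpa using h
        refine ⟨fun h0 => ?_, by simp only [eval, h2, h4, hv_addL u v hl']⟩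
        have := length_addL hl'
        rw [h0] at this
        exact h1 (List.length_eq_zero_iff.mp this.symm)
      · exact absurd h (by simp)
    · exact absurd h (by simp)
  | sub a b, L, h => by
    simp only [norm] at h
    split at h
    · rename_i L₁ M₁ ha hb
      obtain ⟨h1, h2⟩ := norm_spec E a L₁ ha
      obtain ⟨h3, h4⟩ := norm_spec E b M₁ hb
      split at h
      · rename_i hl
        have hl' : L₁.length = (smulL (-1) M₁).length := by
          rw [length_smulL]; simpa using hl
        obtain rfl : addL L₁ (smulL (-1) M₁) = L := by simpa using h
        refine ⟨fun h0 => ?_, ?_⟩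
        · have := length_addL hl'
          rw [h0] at this
          exact h1 (List.length_eq_zero_iff.mp this.symm)
        · simp only [eval, h2, h4, hv_addL u v hl', hv_smulL, Int.cast_neg, Int.cast_one]
          ring
      · exact absurd h (by simp)
    · exact absurd h (by simp)
  | neg a, L, h => by
    simp only [norm] at h
    split at h
    · rename_i L₁ ha
      obtain ⟨h1, h2⟩ := norm_spec E a L₁ ha
      obtain rfl : smulL (-1) L₁ = L := by simpa using h
      refine ⟨fun h0 => ?_, by
        simp only [eval, h2, hv_smulL, Int.cast_neg, Int.cast_one]; ring⟩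
      have := length_smulL (-1) L₁
      rw [h0] at this
      exact h1 (List.length_eq_zero_iff.mp this.symm)
    · exact absurd h (by simp)
  | mul a b, L, h => by
    simp only [norm] at h
    split at h
    · rename_i L₁ M₁ ha hb
      obtain ⟨h1, h2⟩ := norm_spec E a L₁ ha
      obtain ⟨h3, h4⟩ := norm_spec E b M₁ hb
      obtain rfl : mulL L₁ M₁ = L := by simpa using h
      exact ⟨ne_nil_mulL h1 h3, by simp only [eval, h2, h4, hv_mulL u v h3]⟩
    · exact absurd h (by simp)
  | pow a n, L, h => by
    simp only [norm] at h
    split at h
    · rename_i L₁ ha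
      obtain ⟨h1, h2⟩ := norm_spec E a L₁ ha
      obtain rfl : powL L₁ n = L := by simpa using h
      exact ⟨ne_nil_powL h1 n, by simp only [eval, h2, hv_powL u v h1]⟩
    · exact absurd h (by simp)

/-- both expressions are homogeneous, with the same coefficients -/
def check (E : ℕ → List ℤ) (x y : HE) : Bool :=
  match x.norm E, y.norm E with
  | some L, some M => decide (L = M)
  | _, _ => false

theorem eval_eq_of_check (E : ℕ → List ℤ) (x y : HE) (h : check E x y = true) :
    x.eval (fun i => hv u v (E i)) = y.eval (fun i => hv u v (E i)) := by
  simp only [check] at h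
  split at h
  · rename_i L M hx hy
    obtain rfl : L = M := by simpa using h
    rw [(norm_spec u v E x L hx).2, (norm_spec u v E y L hy).2]
  · exact absurd h (by simp)

end HE

end Fermat.Agent.Switch.HF
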