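import Fermat.Agent.Switch.Forms
import Mathlib.Analysis.SpecialFunctions.Pow.NNReal
import Mathlib.FieldTheory.AlgebraicClosure
import Mathlib.Topology.Order.IntermediateValue

/-!
# Real algebraic points with given icosahedral invariants
-/

set_option autoImplicit false

open Polynomial

namespace Fermat.Agent.Switch

/-- the (1728-fold) discriminant form -/
def ef {R : Type*} [CommRing R] (u v : R) : R := c4f u v ^ 3 - c6f u v ^ 2

lemma map_ef {R S : Type*} [CommRing R] [CommRing S] (f : R →+* S) (u v : R) :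
    f (ef u v) = ef (f u) (f v) := by
  simp only [ef, map_sub, map_pow, map_c4f, map_c6f]

/-- From a real algebraic direction to a real algebraic point. -/
lemma finish_real {c4 c6 : ℤ} {p q : ℝ} (hp : p ∈ algebraicClosure ℚ ℝ)
    (hq : q ∈ algebraicClosure ℚ ℝ)
    (hpos : 0 < ((c4 : ℝ) ^ 3 - c6 ^ 2) / ef p q)
    (h6 : Real.sqrt (((c4 : ℝ) ^ 3 - c6 ^ 2) / ef p q) * c6f p q = c6) :
    ∃ u v : ℝ, u ∈ algebraicClosure ℚ ℝ ∧ v ∈ algebraicClosure ℚ ℝ ∧ c4f u v = c4 ∧
      c6f u v = c6 := by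
  set E : ℝ := (c4 : ℝ) ^ 3 - c6 ^ 2 with hE
  have hef : ef p q ≠ 0 := by rintro h; rw [h, div_zero] at hpos; exact lt_irrefl _ hpos
  obtain ⟨τ, hτ0, hτ⟩ : ∃ τ : ℝ, 0 ≤ τ ∧ τ ^ 12 = E / ef p q :=
    ⟨(E / ef p q) ^ (((12 : ℕ) : ℝ)⁻¹), Real.rpow_nonneg hpos.le _,
      Real.rpow_inv_natCast_pow hpos.le (by norm_num)⟩
  have hefA : ef p q ∈ algebraicClosure ℚ ℝ := by
    have := map_ef (algebraMap (algebraicClosure ℚ ℝ) ℝ) ⟨p, hp⟩ ⟨q, hq⟩
    change _ = ef p q at this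
    rw [← this]
    exact (ef (⟨p, hp⟩ : algebraicClosure ℚ ℝ) ⟨q, hq⟩).2
  have hEA : E ∈ algebraicClosure ℚ ℝ :=
    sub_mem (pow_mem (intCast_mem _ _) _) (pow_mem (intCast_mem _ _) _)
  have hτA : τ ∈ algebraicClosure ℚ ℝ := by
    rw [mem_algebraicClosure_iff']
    have : IsIntegral ℚ (τ ^ 12) := by
      rw [hτ, ← mem_algebraicClosure_iff']
      exact div_mem hEA hefA
    exact this.of_pow (by norm_num)
  have h6' : τ ^ 6 = Real.sqrt (E / ef p q) := by
    rw [← hτ, show τ ^ 12 = (τ ^ 6) ^ 2 by ring, Real.sqrt_sq (pow_nonneg hτ0 _)]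
  have hc6 : c6f (τ * p) (τ * q) = c6 := by rw [c6f_smul, h6', h6]
  have hE' : ef (τ * p) (τ * q) = E := by
    have : ef (τ * p) (τ * q) = τ ^ 12 * ef p q := by
      simp only [ef, c4f_smul, c6f_smul]; ring
    rw [this, hτ, div_mul_cancel₀ _ hef]
  have hc4 : c4f (τ * p) (τ * q) = c4 := by
    have h3 : c4f (τ * p) (τ * q) ^ 3 = (c4 : ℝ) ^ 3 := by
      have : c4f (τ * p) (τ * q) ^ 3 = ef (τ * p) (τ * q) + c6f (τ * p) (τ * q) ^ 2 := by
        simp only [ef]; ring
      rw [this, hE', hc6, hE]; ring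
    exact (Odd.strictMono_pow (by decide : Odd 3)).injective h3
  exact ⟨τ * p, τ * q, mul_mem hτA hp, mul_mem hτA hq, hc4, hc6⟩

lemma sqrt_div_mul {a b c d : ℝ} (ha : 0 < a) (hb : 0 < b) (h : c * Real.sqrt a = d * Real.sqrt b) :
    Real.sqrt (a / b) * c = d := by
  rw [Real.sqrt_div ha.le, div_mul_eq_mul_div, mul_comm, h, mul_div_assoc,
    div_self (Real.sqrt_pos.mpr hb).ne', mul_one]

/-- algebraicity of the direction -/
lemma mem_of_root {E c6 : ℤ} (hE : E ≠ 0) {p : ℝ} (b : Bool)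
    (h : (E : ℝ) * (cond b (c6f 1 p) (c6f p 1)) ^ 2 = c6 ^ 2 * cond b (ef 1 p) (ef p 1)) :
    p ∈ algebraicClosure ℚ ℝ := by
  rw [mem_algebraicClosure_iff]
  refine ⟨C (E : ℚ) * (cond b (c6f 1 X) (c6f X 1)) ^ 2 - C ((c6 : ℚ) ^ 2) *
    cond b (ef 1 X) (ef X 1), ?_, ?_⟩
  · intro h0
    have := congrArg (eval 0) h0
    have hE' : (E : ℚ) ≠ 0 := by exact_mod_cast hE
    cases b <;> simp [c6f, ef, c4f] at this <;> exact hE' (by exact_mod_cast this)
  · cases b
    · simp only [cond_false] at h ⊢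
      have h1 : aeval p (c6f X 1 : ℚ[X]) = c6f p 1 := by
        have := map_c6f (aeval p : ℚ[X] →ₐ[ℚ] ℝ).toRingHom X 1
        simpa using this
      have h2 : aeval p (ef X 1 : ℚ[X]) = ef p 1 := by
        have := map_ef (aeval p : ℚ[X] →ₐ[ℚ] ℝ).toRingHom X 1
        simpa using this
      simp only [map_sub, map_mul, map_pow, h1, h2, aeval_C]
      simp only [eq_ratCast, Rat.cast_intCast]
      push_cast
      linear_combination h
    · simp only [cond_true] at h ⊢
      have h1 : aeval p (c6f 1 X : ℚ[X]) = c6f 1 p := by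
        have := map_c6f (aeval p : ℚ[X] →ₐ[ℚ] ℝ).toRingHom 1 X
        simpa using this
      have h2 : aeval p (ef 1 X : ℚ[X]) = ef 1 p := by
        have := map_ef (aeval p : ℚ[X] →ₐ[ℚ] ℝ).toRingHom 1 X
        simpa using this
      simp only [map_sub, map_mul, map_pow, h1, h2, aeval_C]
      simp only [eq_ratCast, Rat.cast_intCast]
      push_cast
      linear_combination h

/-- **Real algebraic points**: the invariants `(c₄, c₆)` of a non-singular curve are attained at a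
real algebraic point `(u, v)`. -/
theorem exists_real_point (c4 c6 : ℤ) (h : c4 ^ 3 - c6 ^ 2 ≠ 0) :
    ∃ u v : ℝ, u ∈ algebraicClosure ℚ ℝ ∧ v ∈ algebraicClosure ℚ ℝ ∧ c4f u v = c4 ∧
      c6f u v = c6 := by
  have hER : (c4 : ℝ) ^ 3 - c6 ^ 2 ≠ 0 := by exact_mod_cast h
  have h5 : Real.sqrt 5 ^ 2 = 5 := Real.sq_sqrt (by norm_num)
  have h5pos : 0 ≤ Real.sqrt 5 := Real.sqrt_nonneg 5
  have h5gt : 11 / 5 < Real.sqrt 5 := by
    rw [Real.lt_sqrt (by norm_num)]; norm_num
  rcases lt_or_gt_of_ne hER with hneg | hpos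
  · -- `E < 0` : use the segment `(s, 1)`, `0 ≤ s ≤ (11 + 5 √5)/2`
    set s₀ : ℝ := (11 + 5 * Real.sqrt 5) / 2 with hs₀
    have hs₀2 : s₀ ^ 2 = 11 * s₀ + 1 := by rw [hs₀]; nlinarith
    have hs₀pos : 0 < s₀ := by rw [hs₀]; positivity
    have hEpos : 0 < -((c4 : ℝ) ^ 3 - c6 ^ 2) := by linarith
    set H : ℝ → ℝ := fun s => c6f s 1 * Real.sqrt (-((c4 : ℝ) ^ 3 - c6 ^ 2)) -
      c6 * Real.sqrt (-ef s 1) with hH
    have hcont : Continuous H := by
      have h1 : Continuous fun s : ℝ => c6f s 1 := by unfold c6f; fun_prop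
      have h2 : Continuous fun s : ℝ => ef s 1 := by unfold ef c4f c6f; fun_prop
      have h3 : Continuous fun s : ℝ => Real.sqrt (-ef s 1) := by fun_prop
      simp only [hH]
      fun_prop
    have hH0 : H 0 < 0 := by
      have : H 0 = - Real.sqrt (-((c4 : ℝ) ^ 3 - c6 ^ 2)) := by
        simp [hH, c6f, ef, c4f]
      rw [this]
      have := Real.sqrt_pos.mpr hEpos
      linarith
    have hef : ∀ s : ℝ, ef s 1 = 1728 * (s * (s ^ 2 - 11 * s - 1) ^ 5) := by
      intro s; rw [ef, disc_f]; ring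
    have hefs : ef s₀ 1 = 0 := by
      rw [hef, hs₀2]; ring
    have hc6s : c6f s₀ 1 = 15625 * (1364 * s₀ + 123) := by
      simp only [c6f]
      linear_combination (-(s₀^4) + 511*s₀^3 + 15625*s₀^2 + 172386*s₀ + 1921876) * hs₀2
    have hH1 : 0 < H s₀ := by
      have : H s₀ = c6f s₀ 1 * Real.sqrt (-((c4 : ℝ) ^ 3 - c6 ^ 2)) := by
        simp [hH, hefs]
      rw [this, hc6s]
      have := Real.sqrt_pos.mpr hEpos
      positivity
    obtain ⟨s, ⟨hs1, hs2⟩, hs⟩ : ∃ s ∈ Set.Icc 0 s₀, H s = 0 :=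
      intermediate_value_Icc hs₀pos.le hcont.continuousOn ⟨hH0.le, hH1.le⟩
    have hs0 : s ≠ 0 := by rintro rfl; rw [hs] at hH0; exact lt_irrefl _ hH0
    have hss₀ : s ≠ s₀ := by rintro rfl; rw [hs] at hH1; exact lt_irrefl _ hH1
    have hspos : 0 < s := lt_of_le_of_ne hs1 (Ne.symm hs0)
    have hslt : s < s₀ := lt_of_le_of_ne hs2 hss₀
    have hquad : s ^ 2 - 11 * s - 1 < 0 := by nlinarith
    have hefneg : ef s 1 < 0 := by
      rw [hef]
      have : (s ^ 2 - 11 * s - 1) ^ 5 < 0 := Odd.pow_neg (by decide) hquad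
      nlinarith [mul_neg_of_pos_of_neg hspos this]
    have heq : c6f s 1 * Real.sqrt (-((c4 : ℝ) ^ 3 - c6 ^ 2)) = c6 * Real.sqrt (-ef s 1) := by
      have := hs; simp only [hH] at this; linarith
    have hdiv : ((c4 : ℝ) ^ 3 - c6 ^ 2) / ef s 1 = (-((c4 : ℝ) ^ 3 - c6 ^ 2)) / (-ef s 1) := by
      rw [neg_div_neg_eq]
    have halg : s ∈ algebraicClosure ℚ ℝ := by
      apply mem_of_root h false (p := s) (c6 := c6)
      simp only [cond_false]
      have := congrArg (· ^ 2) heq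
      simp only [mul_pow] at this
      rw [Real.sq_sqrt hEpos.le, Real.sq_sqrt (by linarith)] at this
      push_cast
      linarith
    refine finish_real halg (one_mem _) ?_ ?_
    · rw [hdiv]; exact div_pos hEpos (by linarith)
    · rw [hdiv]; exact sqrt_div_mul hEpos (by linarith) heq
  · -- `E > 0` : use the segment `(1, w)`, `0 ≤ w ≤ (-11 + 5 √5)/2`
    set s₀ : ℝ := (-11 + 5 * Real.sqrt 5) / 2 with hs₀
    have hs₀2 : s₀ ^ 2 = -11 * s₀ + 1 := by rw [hs₀]; nlinarith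
    have hs₀pos : 0 < s₀ := by rw [hs₀]; linarith
    have hEpos : 0 < ((c4 : ℝ) ^ 3 - c6 ^ 2) := hpos
    set H : ℝ → ℝ := fun s => c6f 1 s * Real.sqrt ((c4 : ℝ) ^ 3 - c6 ^ 2) -
      c6 * Real.sqrt (ef 1 s) with hH
    have hcont : Continuous H := by
      have h1 : Continuous fun s : ℝ => c6f 1 s := by unfold c6f; fun_prop
      have h2 : Continuous fun s : ℝ => ef 1 s := by unfold ef c4f c6f; fun_prop
      have h3 : Continuous fun s : ℝ => Real.sqrt (ef 1 s) := by fun_prop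
      simp only [hH]
      fun_prop
    have hH0 : H 0 < 0 := by
      have : H 0 = - Real.sqrt ((c4 : ℝ) ^ 3 - c6 ^ 2) := by
        simp [hH, c6f, ef, c4f]
      rw [this]
      have := Real.sqrt_pos.mpr hEpos
      linarith
    have hef : ∀ s : ℝ, ef 1 s = 1728 * (s * (1 - 11 * s - s ^ 2) ^ 5) := by
      intro s; rw [ef, disc_f]; ring
    have hefs : ef 1 s₀ = 0 := by
      rw [hef, hs₀2]; ring
    have hc6s : c6f 1 s₀ = 15625 * (123 - 1364 * s₀) := by
      simp only [c6f]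
      linear_combination (-(s₀^4) - 511*s₀^3 + 15625*s₀^2 - 172386*s₀ + 1921876) * hs₀2
    have hlt : 1364 * s₀ < 123 := by
      by_contra hcon
      push Not at hcon
      nlinarith
    have hH1 : 0 < H s₀ := by
      have : H s₀ = c6f 1 s₀ * Real.sqrt ((c4 : ℝ) ^ 3 - c6 ^ 2) := by
        simp [hH, hefs]
      rw [this, hc6s]
      have := Real.sqrt_pos.mpr hEpos
      have h2 : 0 < 123 - 1364 * s₀ := by linarith
      positivity
    obtain ⟨s, ⟨hs1, hs2⟩, hs⟩ : ∃ s ∈ Set.Icc 0 s₀, H s = 0 :=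
      intermediate_value_Icc hs₀pos.le hcont.continuousOn ⟨hH0.le, hH1.le⟩
    have hs0 : s ≠ 0 := by rintro rfl; rw [hs] at hH0; exact lt_irrefl _ hH0
    have hss₀ : s ≠ s₀ := by rintro rfl; rw [hs] at hH1; exact lt_irrefl _ hH1
    have hspos : 0 < s := lt_of_le_of_ne hs1 (Ne.symm hs0)
    have hslt : s < s₀ := lt_of_le_of_ne hs2 hss₀
    have hquad : 0 < 1 - 11 * s - s ^ 2 := by nlinarith
    have hefpos : 0 < ef 1 s := by
      rw [hef]
      positivity
    have heq : c6f 1 s * Real.sqrt ((c4 : ℝ) ^ 3 - c6 ^ 2) = c6 * Real.sqrt (ef 1 s) := by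
      have := hs; simp only [hH] at this; linarith
    have halg : s ∈ algebraicClosure ℚ ℝ := by
      apply mem_of_root h true (p := s) (c6 := c6)
      simp only [cond_true]
      have := congrArg (· ^ 2) heq
      simp only [mul_pow] at this
      rw [Real.sq_sqrt hEpos.le, Real.sq_sqrt hefpos.le] at this
      push_cast
      linarith
    refine finish_real (one_mem _) halg ?_ ?_
    · exact div_pos hEpos hefpos
    · exact sqrt_div_mul hEpos hefpos heq

end Fermat.Agent.Switch
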